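/-
S32 [S32-REAL] — helper6 — **(E) the Artin–Rees step.**

`e : V →ₗ[T] 𝓛` injective, `𝓛` finite over the Noetherian ring `T`, `c ∈ I`: for `m ≫ 0`, a vector
`v` with `e v ∈ c^m 𝓛` lies in `I V`.
-/
import Mathlib

set_option autoImplicit false

namespace Fermat.Agent.S32

theorem exists_pow_of_artinRees {T : Type*} [CommRing T] [IsNoetherianRing T] (I : Ideal T)
    {V L : Type*} [AddCommGroup V] [Module T V] [AddCommGroup L] [Module T L] [Module.Finite T L]
    (e : V →ₗ[T] L) (he : Function.Injective e) (c : T) (hc : c ∈ I) :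
    ∃ m : ℕ, ∀ v : V, (∃ μ : L, e v = c ^ m • μ) → v ∈ I • (⊤ : Submodule T V) := by
  obtain ⟨k, hk⟩ := Ideal.exists_pow_inf_eq_pow_smul I (LinearMap.range e)
  refine ⟨k + 1, ?_⟩
  rintro v ⟨μ, hμ⟩
  have h1 : e v ∈ I ^ (k + 1) • (⊤ : Submodule T L) ⊓ LinearMap.range e := by
    refine ⟨?_, v, rfl⟩
    rw [hμ]
    exact Submodule.smul_mem_smul (Ideal.pow_mem_pow hc (k + 1)) Submodule.mem_top
  rw [hk (k + 1) (Nat.le_succ k), Nat.add_sub_cancel_left, pow_one] at h1
  have h2 : I • (I ^ k • (⊤ : Submodule T L) ⊓ LinearMap.range e) ≤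
      I • LinearMap.range e := Submodule.smul_mono le_rfl inf_le_right
  have h3 := h2 h1
  rw [← Submodule.map_top e, ← Submodule.map_smul''] at h3
  obtain ⟨v', hv', hv'e⟩ := h3
  rw [← he hv'e]
  exact hv'

end Fermat.Agent.S32
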