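/-
S32 [S32-REAL] — helper6 — **(E') the Artin–Rees step in semilinear form.**

`ψ i : T →+* B i` finitely many finite ring homomorphisms, `M i` finite `B i`-modules,
`e i : V →+ (κ → M i)` additive, `ψ i`-semilinear and jointly injective, `c ∈ I`: for `m ≫ 0`, a
vector `v` all of whose images `e i v k` are divisible by `ψ i (c ^ m)` lies in `I V`.
Also: finiteness of the composite `T → B₀ → B` of a point with a finite extension.
-/
import Mathlib
import Fermat.Agent.S32.ArtinRees_helper6

set_option autoImplicit false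
set_option linter.unusedSectionVars false
set_option linter.style.haveILetI false

namespace Fermat.Agent.S32

/-- the composite of an algebra point `T → B₀` (`B₀` finite over the base) with a finite extension
`B₀ → B` is a finite ring homomorphism -/
theorem finite_comp_point {𝒪 T B₀ B : Type*} [CommRing 𝒪] [CommRing T] [CommRing B₀] [CommRing B]
    [Algebra 𝒪 T] [Algebra 𝒪 B₀] [Algebra B₀ B] [Module.Finite 𝒪 B₀] [Module.Finite B₀ B]
    (ψ₀ : T →ₐ[𝒪] B₀) : ((algebraMap B₀ B).comp (ψ₀ : T →+* B₀)).Finite := by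
  refine RingHom.Finite.of_comp_finite (f := algebraMap 𝒪 T) ?_
  have h : ((algebraMap B₀ B).comp (ψ₀ : T →+* B₀)).comp (algebraMap 𝒪 T) =
      (algebraMap B₀ B).comp (algebraMap 𝒪 B₀) := by
    rw [RingHom.comp_assoc, ψ₀.comp_algebraMap]
  rw [h]
  exact RingHom.Finite.comp (RingHom.finite_algebraMap.2 inferInstance)
    (RingHom.finite_algebraMap.2 inferInstance)

theorem exists_pow_of_artinRees_semilinear {T : Type*} [CommRing T] [IsNoetherianRing T]
    (I : Ideal T) {V : Type*} [AddCommGroup V] [Module T V]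
    {ι : Type*} [Finite ι] {B : ι → Type*} [∀ i, CommRing (B i)] (ψ : ∀ i, T →+* B i)
    (hψ : ∀ i, (ψ i).Finite)
    {M : ι → Type*} [∀ i, AddCommGroup (M i)] [∀ i, Module (B i) (M i)]
    [∀ i, Module.Finite (B i) (M i)] {κ : Type*} [Finite κ]
    (e : ∀ i, V →+ (κ → M i)) (hlin : ∀ i (t : T) (v : V) (k : κ), e i (t • v) k = ψ i t • e i v k)
    (hinj : ∀ v : V, (∀ i, e i v = 0) → v = 0) (c : T) (hc : c ∈ I) :
    ∃ m : ℕ, ∀ v : V, (∀ i k, ∃ μ : M i, e i v k = ψ i (c ^ m) • μ) →
      v ∈ I • (⊤ : Submodule T V) := by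
  letI algTB : ∀ i, Algebra T (B i) := fun i => (ψ i).toAlgebra
  letI modTM : ∀ i, Module T (M i) := fun i => Module.compHom (M i) (ψ i)
  have hsmul : ∀ i (t : T) (μ : M i), t • μ = ψ i t • μ := fun i t μ => rfl
  haveI : ∀ i, IsScalarTower T (B i) (M i) := fun i => ⟨fun t b μ => by
    rw [hsmul, Algebra.smul_def, mul_smul]
    rfl⟩
  haveI : ∀ i, Module.Finite T (B i) := fun i => hψ i
  haveI : ∀ i, Module.Finite T (M i) := fun i => Module.Finite.trans (B i) (M i)
  let e' : V →ₗ[T] (∀ i, κ → M i) :=
    { toFun := fun v i => e i v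
      map_add' := fun v w => by
        funext i
        exact map_add (e i) v w
      map_smul' := fun t v => by
        funext i k
        exact hlin i t v k }
  have he' : Function.Injective e' := by
    rw [injective_iff_map_eq_zero]
    intro v hv
    exact hinj v fun i => congrFun hv i
  obtain ⟨m, hm⟩ := exists_pow_of_artinRees I e' he' c hc
  refine ⟨m, fun v hv => hm v ?_⟩
  choose μ hμ using hv
  refine ⟨fun i k => μ i k, ?_⟩
  funext i k
  exact hμ i k

end Fermat.Agent.S32
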