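/-
S32 [S32-REAL] — helper6 — **(F2) presenting `M(B) / c M(B)` by copies of `P`.**

`P = parabolicHoms ℤ_[p] Γ ℤ_[p]`, `M(B) = parabolicHoms B Γ B ≃ B ⊗ P` for a torsion-free
`ℤ_[p]`-algebra `B`.  For a family `lift : X → B` of representatives of `B / c B` the additive map
`approxMap : (X → P) →+ M(B)`, `y ↦ ∑ x, lift x • (algebraMap ∘ y x)`, is surjective modulo
`c M(B)` (`exists_approx`) and intertwines `g` on `P` with `parExt g` on `M(B)`.
-/
import Mathlib
import Fermat.Agent.GR.BETTI_lead_BaseChange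

set_option autoImplicit false
set_option linter.unusedSectionVars false

namespace Fermat.Agent.S32

open Fermat.Agent.GR ModularCurve.Period TensorProduct

open scoped MatrixGroups

section Approx

variable (p : ℕ) [hp : Fact p.Prime] (B : Type*) [CommRing B] [Algebra ℤ_[p] B]
  [IsAddTorsionFree B] (Γ : Subgroup SL(2, ℤ)) [Group.FG Γ]
  {X : Type*} [Fintype X] (lift : X → B)

/-- `y ↦ ∑ x, lift x • (algebraMap ∘ y x)` -/
noncomputable def approxMap :
    (X → ↥(parabolicHoms ℤ_[p] Γ ℤ_[p])) →+ ↥(parabolicHoms B Γ B) where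
  toFun y := ∑ x, lift x • parMapAlg ℤ_[p] B Γ (y x)
  map_zero' := by
    simp only [Pi.zero_apply, map_zero, smul_zero, Finset.sum_const_zero]
  map_add' y y' := by
    simp only [Pi.add_apply, map_add, smul_add, Finset.sum_add_distrib]

theorem approxMap_apply (y : X → ↥(parabolicHoms ℤ_[p] Γ ℤ_[p])) :
    approxMap p B Γ lift y = ∑ x, lift x • parMapAlg ℤ_[p] B Γ (y x) := rfl

/-- intertwining with extended endomorphisms -/
theorem parExt_approxMap (g : Module.End ℤ_[p] ↥(parabolicHoms ℤ_[p] Γ ℤ_[p]))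
    (y : X → ↥(parabolicHoms ℤ_[p] Γ ℤ_[p])) :
    parExt ℤ_[p] B Γ g (approxMap p B Γ lift y) = approxMap p B Γ lift (fun x => g (y x)) := by
  rw [approxMap_apply, approxMap_apply, map_sum]
  refine Finset.sum_congr rfl fun x _ => ?_
  exact parExt_smul_parMapAlg ℤ_[p] B Γ g (lift x) (y x)

/-- divisibility passes through `approxMap` -/
theorem approxMap_eq_smul (m : ℕ) (y y' : X → ↥(parabolicHoms ℤ_[p] Γ ℤ_[p]))
    (h : ∀ x, y x = (p : ℤ_[p]) ^ m • y' x) :
    approxMap p B Γ lift y = (p : B) ^ m • approxMap p B Γ lift y' := by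
  rw [approxMap_apply, approxMap_apply, Finset.smul_sum]
  refine Finset.sum_congr rfl fun x _ => ?_
  rw [h x, map_smul, smul_comm, ← algebraMap_smul B ((p : ℤ_[p]) ^ m), map_pow, map_natCast]

variable [DecidableEq X]

/-- **approximation**: every element of `M(B)` is congruent modulo `c` to a value of
`approxMap`. -/
theorem exists_approx (c : B) (hlift : ∀ b : B, ∃ x b', b = lift x + c * b')
    (μ : ↥(parabolicHoms B Γ B)) :
    ∃ (y : X → ↥(parabolicHoms ℤ_[p] Γ ℤ_[p])) (μ' : ↥(parabolicHoms B Γ B)),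
      μ = approxMap p B Γ lift y + c • μ' := by
  obtain ⟨z, rfl⟩ := (parBC ℤ_[p] B Γ).surjective μ
  induction z using TensorProduct.induction_on with
  | zero =>
    refine ⟨0, 0, ?_⟩
    rw [LinearEquiv.map_zero (parBC ℤ_[p] B Γ), map_zero, smul_zero, add_zero]
  | tmul b ψ =>
    obtain ⟨x₀, b', hb⟩ := hlift b
    refine ⟨Pi.single x₀ ψ, b' • parMapAlg ℤ_[p] B Γ ψ, ?_⟩
    rw [parBC_tmul, approxMap_apply, Finset.sum_eq_single x₀]
    · rw [Pi.single_eq_same, smul_smul, ← add_smul, ← hb]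
    · intro x _ hx
      rw [Pi.single_eq_of_ne hx, map_zero, smul_zero]
    · intro h
      exact absurd (Finset.mem_univ x₀) h
  | add z z' hz hz' =>
    obtain ⟨y, μ', h⟩ := hz
    obtain ⟨y', μ'', h'⟩ := hz'
    refine ⟨y + y', μ' + μ'', ?_⟩
    rw [LinearEquiv.map_add (parBC ℤ_[p] B Γ), h, h', map_add, smul_add]
    abel

end Approx

end Fermat.Agent.S32
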