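/-
S32 [S32-REAL] — helper6 — **abstract closure calculus for classes of Galois modules.**

`G` a group (the absolute Galois group), Galois modules = pairs `(M, a)` with
`a : G →* AddMonoid.End M`.  A class `Q` of Galois modules closed under equivariant injections
(subobjects), equivariant surjections (quotients) and binary products (`FlatClosure Q`) is closed
under finite powers and under **subquotients in correspondence form** (`FlatClosure.subquotient`):
`Z ∈ Q`, `f : W →+ Z` and `g : W →+ X` equivariant, `g` surjective, `ker f ≤ ker g` ⇒ `X ∈ Q`.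
-/
import Mathlib

set_option autoImplicit false
set_option linter.unusedSectionVars false

namespace Fermat.Agent.S32

section Acts

variable {G : Type*} [Monoid G]

/-- the product action -/
def prodAct {M M' : Type*} [AddCommGroup M] [AddCommGroup M'] (a : G →* AddMonoid.End M)
    (a' : G →* AddMonoid.End M') : G →* AddMonoid.End (M × M') where
  toFun σ := AddMonoidHom.prodMap (a σ) (a' σ)
  map_one' := by
    refine AddMonoidHom.ext fun x => ?_
    rw [map_one, map_one]
    rfl
  map_mul' σ τ := by
    refine AddMonoidHom.ext fun x => ?_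
    rw [map_mul, map_mul]
    rfl

@[simp] theorem prodAct_apply {M M' : Type*} [AddCommGroup M] [AddCommGroup M']
    (a : G →* AddMonoid.End M) (a' : G →* AddMonoid.End M') (σ : G) (x : M × M') :
    prodAct a a' σ x = (a σ x.1, a' σ x.2) := rfl

/-- the action on functions with values in a Galois module -/
def piAct {M : Type*} [AddCommGroup M] (R : Type*) (a : G →* AddMonoid.End M) :
    G →* AddMonoid.End (R → M) where
  toFun σ := AddMonoidHom.compLeft (a σ) R
  map_one' := by
    refine AddMonoidHom.ext fun x => ?_
    funext r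
    show (a 1) (x r) = x r
    rw [map_one]
    rfl
  map_mul' σ τ := by
    refine AddMonoidHom.ext fun x => ?_
    funext r
    show (a (σ * τ)) (x r) = (a σ) ((a τ) (x r))
    rw [map_mul]
    rfl

@[simp] theorem piAct_apply {M : Type*} [AddCommGroup M] (R : Type*) (a : G →* AddMonoid.End M)
    (σ : G) (x : R → M) (r : R) : piAct R a σ x r = a σ (x r) := rfl

/-- the action on a dependent product of Galois modules -/
def dpiAct {R : Type*} {M : R → Type*} [∀ r, AddCommGroup (M r)]
    (a : ∀ r, G →* AddMonoid.End (M r)) : G →* AddMonoid.End (∀ r, M r) where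
  toFun σ :=
    { toFun := fun x r => a r σ (x r)
      map_zero' := by funext r; exact map_zero _
      map_add' := fun x y => by funext r; exact map_add _ _ _ }
  map_one' := by
    refine AddMonoidHom.ext fun x => ?_
    funext r
    show (a r 1) (x r) = x r
    rw [map_one]
    rfl
  map_mul' σ τ := by
    refine AddMonoidHom.ext fun x => ?_
    funext r
    show (a r (σ * τ)) (x r) = (a r σ) ((a r τ) (x r))
    rw [map_mul]
    rfl

@[simp] theorem dpiAct_apply {R : Type*} {M : R → Type*} [∀ r, AddCommGroup (M r)]
    (a : ∀ r, G →* AddMonoid.End (M r)) (σ : G) (x : ∀ r, M r) (r : R) :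
    dpiAct a σ x r = a r σ (x r) := rfl

end Acts

section Closure

variable {G : Type} [Group G]

/-- a class of Galois modules closed under subobjects, quotients and binary products -/
structure FlatClosure (Q : ∀ (M : Type) [AddCommGroup M], (G →* AddMonoid.End M) → Prop) :
    Prop where
  of_injective : ∀ {M M' : Type} [AddCommGroup M] [AddCommGroup M'] (a : G →* AddMonoid.End M)
    (a' : G →* AddMonoid.End M') (f : M' →+ M), Function.Injective f →
    (∀ σ x, f (a' σ x) = a σ (f x)) → Q M a → Q M' a'
  of_surjective : ∀ {M M' : Type} [AddCommGroup M] [AddCommGroup M'] (a : G →* AddMonoid.End M)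
    (a' : G →* AddMonoid.End M') (f : M →+ M'), Function.Surjective f →
    (∀ σ x, f (a σ x) = a' σ (f x)) → Q M a → Q M' a'
  prod : ∀ {M M' : Type} [AddCommGroup M] [AddCommGroup M'] (a : G →* AddMonoid.End M)
    (a' : G →* AddMonoid.End M'), Q M a → Q M' a' → Q (M × M') (prodAct a a')

namespace FlatClosure

variable {Q : ∀ (M : Type) [AddCommGroup M], (G →* AddMonoid.End M) → Prop} (hQ : FlatClosure Q)

include hQ

/-- finite powers -/
theorem pi_fin {M : Type} [AddCommGroup M] (a : G →* AddMonoid.End M) (h : Q M a) (n : ℕ) :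
    Q (Fin n → M) (piAct (Fin n) a) := by
  induction n with
  | zero =>
    refine hQ.of_injective a (piAct (Fin 0) a) 0 ?_ ?_ h
    · intro x y _
      funext r
      exact r.elim0
    · intro σ x
      show (0 : M) = a σ 0
      rw [map_zero]
  | succ n ih =>
    have hp := hQ.prod a (piAct (Fin n) a) h ih
    let f : (Fin (n + 1) → M) →+ M × (Fin n → M) :=
      { toFun := fun x => (x 0, fun i => x i.succ)
        map_zero' := rfl
        map_add' := fun x y => rfl }
    refine hQ.of_injective (prodAct a (piAct (Fin n) a)) (piAct (Fin (n + 1)) a) f ?_ ?_ hp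
    · intro x y hxy
      funext i
      refine Fin.cases ?_ (fun i => ?_) i
      · exact congrArg Prod.fst hxy
      · exact congrFun (congrArg Prod.snd hxy) i
    · intro σ x
      rfl

/-- powers indexed by a finite type -/
theorem pi_finite {M : Type} [AddCommGroup M] (a : G →* AddMonoid.End M) (h : Q M a)
    (R : Type) [Finite R] : Q (R → M) (piAct R a) := by
  obtain ⟨n, ⟨e⟩⟩ := Finite.exists_equiv_fin R
  let f : (R → M) →+ (Fin n → M) :=
    { toFun := fun x i => x (e.symm i)
      map_zero' := rfl
      map_add' := fun x y => rfl }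
  refine hQ.of_injective (piAct (Fin n) a) (piAct R a) f ?_ ?_ (hQ.pi_fin a h n)
  · intro x y hxy
    funext r
    have := congrFun hxy (e r)
    simpa [f] using this
  · intro σ x
    rfl

/-- **subquotients in correspondence form** -/
theorem subquotient {Z W X : Type} [AddCommGroup Z] [AddCommGroup W] [AddCommGroup X]
    (aZ : G →* AddMonoid.End Z) (aX : G →* AddMonoid.End X)
    (f : W →+ Z) (g : W →+ X) (hg : Function.Surjective g) (hker : ∀ w, f w = 0 → g w = 0)
    (hσ : ∀ σ w, ∃ w', f w' = aZ σ (f w) ∧ g w' = aX σ (g w))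
    (hZ : Q Z aZ) : Q X aX := by
  -- the image `Y` of `f`
  let Y : AddSubgroup Z := f.range
  have hstab : ∀ σ (y : Z), y ∈ Y → aZ σ y ∈ Y := by
    rintro σ _ ⟨w, rfl⟩
    obtain ⟨w', hw', -⟩ := hσ σ w
    exact ⟨w', hw'⟩
  let aY : G →* AddMonoid.End ↥Y :=
    { toFun := fun σ =>
        { toFun := fun y => ⟨aZ σ y.1, hstab σ y.1 y.2⟩
          map_zero' := Subtype.ext (map_zero _)
          map_add' := fun y y' => Subtype.ext (map_add _ _ _) }
      map_one' := by
        refine AddMonoidHom.ext fun y => Subtype.ext ?_
        show (aZ 1) y.1 = y.1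
        rw [map_one]
        rfl
      map_mul' := fun σ τ => by
        refine AddMonoidHom.ext fun y => Subtype.ext ?_
        show (aZ (σ * τ)) y.1 = (aZ σ) ((aZ τ) y.1)
        rw [map_mul]
        rfl }
  have hY : Q ↥Y aY :=
    hQ.of_injective aZ aY Y.subtype Subtype.val_injective (fun σ y => rfl) hZ
  -- the induced map `Y → X`
  have hwd : ∀ w w' : W, f w = f w' → g w = g w' := by
    intro w w' h
    have h0 : f (w - w') = 0 := by rw [map_sub, h, sub_self]
    have := hker _ h0
    rwa [map_sub, sub_eq_zero] at this
  choose pre hpre using fun y : ↥Y => y.2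
  let h : ↥Y →+ X :=
    { toFun := fun y => g (pre y)
      map_zero' := by
        have : f (pre 0) = f 0 := by rw [map_zero]; exact hpre 0
        rw [hwd _ _ this, map_zero]
      map_add' := fun y y' => by
        have : f (pre (y + y')) = f (pre y + pre y') := by
          rw [map_add]
          exact (hpre (y + y')).trans (by
            show (y.1 + y'.1 : Z) = f (pre y) + f (pre y')
            rw [hpre y, hpre y'])
        rw [hwd _ _ this, map_add] }
  have hh : ∀ w : W, h ⟨f w, w, rfl⟩ = g w := by
    intro w
    exact hwd _ _ (hpre ⟨f w, w, rfl⟩)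
  refine hQ.of_surjective aY aX h ?_ ?_ hY
  · intro x
    obtain ⟨w, rfl⟩ := hg x
    exact ⟨⟨f w, w, rfl⟩, hh w⟩
  · rintro σ ⟨_, w, rfl⟩
    obtain ⟨w', hw', hw'g⟩ := hσ σ w
    have h1 : aY σ ⟨f w, w, rfl⟩ = ⟨f w', w', rfl⟩ := Subtype.ext hw'.symm
    rw [h1, hh, hh, hw'g]

end FlatClosure

end Closure

end Fermat.Agent.S32
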