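/-
S32 [S32-REAL] — helper6 — **the abstract realisation lemma.**

`Q` a class of Galois modules closed under subobjects, quotients and products, `Jm ∈ Q`
(`= J[p^m]`), `red : P → Jm` equivariant with kernel `mulP P` (`P = T_p J`, `mulP = p^m`).
For finitely many `i`: a `B i`-module `M i` with Galois action, an element `cB i` (`= p^m`),
an "approximation" `approx i : (X i → P) →+ M i` (`X i` finite) — equivariant, compatible with
divisibility and surjective modulo `cB i` — and equivariant maps `e i : V →+ (Fin 2 → M i)` such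
that (Artin–Rees) `e v ∈ c 𝓛` implies `v ∈ I V`.  Then `V / I V ∈ Q`.
-/
import Mathlib
import Fermat.Agent.S32.Closure_helper6

set_option autoImplicit false
set_option linter.unusedSectionVars false

namespace Fermat.Agent.S32

namespace FlatClosure

variable {G : Type} [Group G]
  {Q : ∀ (M : Type) [AddCommGroup M], (G →* AddMonoid.End M) → Prop} (hQ : FlatClosure Q)

include hQ in
theorem realise
    {T : Type} [CommRing T] (IT : Ideal T) {V : Type} [AddCommGroup V] [Module T V]
    (actV : G →* AddMonoid.End V)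
    (aX : G →* AddMonoid.End (V ⧸ IT • (⊤ : Submodule T V)))
    (haX : ∀ σ v, aX σ (Submodule.Quotient.mk v) = Submodule.Quotient.mk (actV σ v))
    {ι : Type} [Finite ι] {B : ι → Type} [∀ i, CommRing (B i)] {M : ι → Type}
    [∀ i, AddCommGroup (M i)] [∀ i, Module (B i) (M i)]
    (actM : ∀ i, G →* AddMonoid.End (M i)) (cB : ∀ i, B i)
    (hactM : ∀ i σ (μ : M i), actM i σ (cB i • μ) = cB i • actM i σ μ)
    {P Jm : Type} [AddCommGroup P] [AddCommGroup Jm] (actP : G →* AddMonoid.End P)
    (actJ : G →* AddMonoid.End Jm)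
    (mulP : P →+ P) (red : P →+ Jm) (hred : ∀ σ ψ, red (actP σ ψ) = actJ σ (red ψ))
    (hredker : ∀ ψ, red ψ = 0 → ∃ ψ', ψ = mulP ψ')
    {X : ι → Type} [∀ i, Finite (X i)]
    (approx : ∀ i, (X i → P) →+ M i)
    (happroxσ : ∀ i σ (y : X i → P), approx i (fun x => actP σ (y x)) = actM i σ (approx i y))
    (happroxdiv : ∀ i (y y' : X i → P), (∀ x, y x = mulP (y' x)) →
      approx i y = cB i • approx i y')
    (happrox : ∀ i (μ : M i), ∃ (y : X i → P) (μ' : M i), μ = approx i y + cB i • μ')
    (e : ∀ i, V →+ (Fin 2 → M i))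
    (heσ : ∀ i σ v k, e i (actV σ v) k = actM i σ (e i v k))
    (hAR : ∀ v : V, (∀ i k, ∃ μ : M i, e i v k = cB i • μ) → v ∈ IT • (⊤ : Submodule T V))
    (hJ : Q Jm actJ) : Q (V ⧸ IT • (⊤ : Submodule T V)) aX := by
  classical
  -- the index type of the power of `Jm`
  let R : Type := Σ i : ι, Fin 2 × X i
  have : Finite R := inferInstance
  have hZ : Q (R → Jm) (piAct R actJ) := hQ.pi_finite actJ hJ R
  -- the correspondence
  let sl : ((R → P) × V) → ∀ i, Fin 2 → X i → P := fun w i k x => w.1 ⟨i, k, x⟩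
  have hsl_add : ∀ w w' i k, sl (w + w') i k = sl w i k + sl w' i k := fun w w' i k => rfl
  have hsl_neg : ∀ w i k, sl (-w) i k = -sl w i k := fun w i k => rfl
  have hsl_zero : ∀ i k, sl 0 i k = 0 := fun i k => rfl
  let W : AddSubgroup ((R → P) × V) :=
    { carrier := {w | ∀ i k, ∃ μ : M i, approx i (sl w i k) - e i w.2 k = cB i • μ}
      zero_mem' := by
        intro i k
        refine ⟨0, ?_⟩
        show approx i (sl 0 i k) - e i (0 : V) k = cB i • 0
        rw [hsl_zero, map_zero, map_zero, smul_zero]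
        exact sub_zero _
      add_mem' := by
        intro w w' hw hw' i k
        obtain ⟨μ, hμ⟩ := hw i k
        obtain ⟨μ', hμ'⟩ := hw' i k
        refine ⟨μ + μ', ?_⟩
        show approx i (sl (w + w') i k) - e i (w.2 + w'.2) k = _
        rw [hsl_add, map_add, map_add, smul_add, ← hμ, ← hμ']
        show _ - (e i w.2 k + e i w'.2 k) = _
        abel
      neg_mem' := by
        intro w hw i k
        obtain ⟨μ, hμ⟩ := hw i k
        refine ⟨-μ, ?_⟩
        show approx i (sl (-w) i k) - e i (-w.2) k = _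
        rw [hsl_neg, map_neg, map_neg, smul_neg, ← hμ]
        show _ - (-(e i w.2 k)) = _
        abel }
  let f : ↥W →+ (R → Jm) :=
    ((AddMonoidHom.compLeft red R).comp (AddMonoidHom.fst (R → P) V)).comp W.subtype
  let g : ↥W →+ (V ⧸ IT • (⊤ : Submodule T V)) :=
    ((IT • (⊤ : Submodule T V)).mkQ.toAddMonoidHom.comp (AddMonoidHom.snd (R → P) V)).comp
      W.subtype
  have hf : ∀ (w : ↥W) (r : R), f w r = red (w.1.1 r) := fun w r => rfl
  have hgv : ∀ w : ↥W, g w = Submodule.Quotient.mk w.1.2 := fun w => rfl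
  refine hQ.subquotient (piAct R actJ) aX f g ?_ ?_ ?_ hZ
  · -- `g` is surjective
    intro x
    obtain ⟨v, rfl⟩ := Submodule.Quotient.mk_surjective _ x
    choose y μ' hy using fun i k => happrox i (e i v k)
    refine ⟨⟨(fun r => y r.1 r.2.1 r.2.2, v), ?_⟩, rfl⟩
    intro i k
    refine ⟨-μ' i k, ?_⟩
    show approx i (fun x => y i k x) - e i v k = _
    rw [hy i k, smul_neg]
    abel
  · -- the kernel condition
    intro w hw
    rw [hgv, Submodule.Quotient.mk_eq_zero]
    apply hAR
    have hr : ∀ r : R, red (w.1.1 r) = 0 := fun r => by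
      rw [← hf, hw]; rfl
    choose y' hy' using fun r => hredker _ (hr r)
    intro i k
    obtain ⟨μ, hμ⟩ := w.2 i k
    have h1 := happroxdiv i (sl w.1 i k) (fun x => y' ⟨i, k, x⟩) (fun x => hy' ⟨i, k, x⟩)
    refine ⟨approx i (fun x => y' ⟨i, k, x⟩) - μ, ?_⟩
    rw [smul_sub, ← h1, ← hμ]
    abel
  · -- equivariance
    intro σ w
    refine ⟨⟨(fun r => actP σ (w.1.1 r), actV σ w.1.2), ?_⟩, ?_, ?_⟩
    · intro i k
      obtain ⟨μ, hμ⟩ := w.2 i k
      refine ⟨actM i σ μ, ?_⟩
      show approx i (fun x => actP σ (sl w.1 i k x)) - e i (actV σ w.1.2) k = _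
      rw [happroxσ, heσ, ← map_sub, hμ, hactM]
    · funext r
      show red (actP σ (w.1.1 r)) = actJ σ (red (w.1.1 r))
      exact hred σ _
    · rw [hgv, hgv, haX]

end FlatClosure

end Fermat.Agent.S32
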