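/-
S32 [S32-REAL] — helper6 — **(A) the coefficient ring `T` of a Hecke–Galois datum is reduced and
has enough points.**

`𝕋` a reduced commutative ring, finite free over `ℤ` (the Hecke algebra), `𝒪` a complete DVR of
characteristic `0` with finite residue field, `T` a finite free `𝒪`-algebra generated over `𝒪` by
the image of a ring homomorphism `π : 𝕋 →+* T`.  Then there are finitely many complete DVRs
`𝒪' i`, finite over `𝒪`, and `𝒪`-algebra homomorphisms `ψ i : T →ₐ[𝒪] 𝒪' i` which are jointly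
injective (`exists_points`).
-/
import Mathlib
import Fermat.Agent.GR.UPTS_helper2_Trace
import Fermat.Agent.CFT.Local.IntClosure

set_option autoImplicit false
set_option linter.unusedSectionVars false
set_option linter.style.haveILetI false

open TensorProduct

namespace Fermat.Agent.S32

open Fermat.Agent.GR

section Reduced

variable (𝕋 : Type*) [CommRing 𝕋] [Module.Finite ℤ 𝕋] [Module.Free ℤ 𝕋]
  (K : Type*) [Field K]

theorem lmul_one_tmul (z : 𝕋) :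
    Algebra.lmul K (K ⊗[ℤ] 𝕋) ((1 : K) ⊗ₜ[ℤ] z) = (Algebra.lmul ℤ 𝕋 z).baseChange K := by
  apply LinearMap.ext
  intro v
  rw [lmul_baseChange_apply]
  rfl

theorem trace_one_tmul (z : 𝕋) :
    Algebra.trace K (K ⊗[ℤ] 𝕋) ((1 : K) ⊗ₜ[ℤ] z) = ((Algebra.trace ℤ 𝕋 z : ℤ) : K) := by
  rw [Algebra.trace_apply, lmul_one_tmul, LinearMap.trace_baseChange, Algebra.trace_apply]
  rfl

variable [IsReduced 𝕋] [CharZero K]

/-- the base change of a reduced finite free `ℤ`-algebra to a field of characteristic zero is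
reduced (the discriminant is a non-zero integer). -/
theorem isReduced_tensor : IsReduced (K ⊗[ℤ] 𝕋) := by
  classical
  let b := Module.Free.chooseBasis ℤ 𝕋
  let bK := Algebra.TensorProduct.basis K b
  have hdet : (LinearMap.BilinForm.toMatrix bK (Algebra.traceForm K (K ⊗[ℤ] 𝕋))).det ≠ 0 := by
    have h1 : LinearMap.BilinForm.toMatrix bK (Algebra.traceForm K (K ⊗[ℤ] 𝕋)) =
        (Algebra.traceMatrix ℤ b).map (Int.castRingHom K) := by
      ext i j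
      rw [Algebra.traceForm_toMatrix, Matrix.map_apply, Algebra.traceMatrix_apply,
        Algebra.traceForm_apply]
      show Algebra.trace K _ (Algebra.TensorProduct.basis K b i * Algebra.TensorProduct.basis K b j)
        = _
      rw [Algebra.TensorProduct.basis_apply, Algebra.TensorProduct.basis_apply,
        Algebra.TensorProduct.tmul_mul_tmul, one_mul, trace_one_tmul]
      rfl
    rw [h1, ← RingHom.mapMatrix_apply, ← RingHom.map_det]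
    have := traceMatrix_det_ne_zero b
    simpa using this
  have hnd := LinearMap.BilinForm.nondegenerate_of_det_ne_zero (B₃ := Algebra.traceForm K (K ⊗[ℤ] 𝕋)) bK hdet
  refine ⟨fun x hx => ?_⟩
  apply hnd.1 x
  intro y
  rw [Algebra.traceForm_apply]
  have hxy : IsNilpotent (x * y) := (Commute.all x y).isNilpotent_mul_right hx
  exact (Algebra.isNilpotent_trace_of_isNilpotent (R := K) hxy).eq_zero

end Reduced

section Surj

variable (𝕋 : Type*) [CommRing 𝕋]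
  (𝒪 : Type*) [CommRing 𝒪] (K : Type*) [Field K] [Algebra 𝒪 K]
  (T : Type*) [CommRing T] [Algebra 𝒪 T] (π : 𝕋 →+* T)

/-- `a ↦ a ⊗ 1` -/
noncomputable def tensorPiLeft : K →+* K ⊗[𝒪] T :=
  ((Algebra.TensorProduct.includeLeft : K →ₐ[𝒪] K ⊗[𝒪] T) : K →+* K ⊗[𝒪] T)

/-- `t ↦ 1 ⊗ π t` -/
noncomputable def tensorPiRight : 𝕋 →+* K ⊗[𝒪] T :=
  ((Algebra.TensorProduct.includeRight : T →ₐ[𝒪] K ⊗[𝒪] T) : T →+* K ⊗[𝒪] T).comp π

/-- the ring homomorphism `K ⊗[ℤ] 𝕋 → K ⊗[𝒪] T`, `a ⊗ t ↦ a ⊗ π t` -/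
noncomputable def tensorPi : K ⊗[ℤ] 𝕋 →ₐ[ℤ] K ⊗[𝒪] T :=
  Algebra.TensorProduct.productMap
    { toRingHom := tensorPiLeft 𝒪 K T
      commutes' := fun n => by
        rw [eq_intCast, eq_intCast]; exact map_intCast (tensorPiLeft 𝒪 K T) n }
    { toRingHom := tensorPiRight 𝕋 𝒪 K T π
      commutes' := fun n => by
        rw [eq_intCast, eq_intCast]; exact map_intCast (tensorPiRight 𝕋 𝒪 K T π) n }

theorem tensorPi_tmul (a : K) (t : 𝕋) :
    tensorPi 𝕋 𝒪 K T π (a ⊗ₜ[ℤ] t) = a ⊗ₜ[𝒪] π t := by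
  unfold tensorPi
  rw [Algebra.TensorProduct.productMap_apply_tmul]
  show (a ⊗ₜ[𝒪] (1 : T)) * ((1 : K) ⊗ₜ[𝒪] π t) = _
  rw [Algebra.TensorProduct.tmul_mul_tmul, mul_one, one_mul]

theorem tensorPi_surjective (hπ : Algebra.adjoin 𝒪 (Set.range π) = ⊤) :
    Function.Surjective (tensorPi 𝕋 𝒪 K T π) := by
  have key : ∀ x : T, ∀ a : K, ∃ z, tensorPi 𝕋 𝒪 K T π z = a ⊗ₜ[𝒪] x := by
    intro x
    have hx : x ∈ Algebra.adjoin 𝒪 (Set.range π) := by rw [hπ]; trivial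
    induction hx using Algebra.adjoin_induction with
    | mem x hx =>
      obtain ⟨t, rfl⟩ := hx
      intro a
      exact ⟨a ⊗ₜ t, tensorPi_tmul 𝕋 𝒪 K T π a t⟩
    | algebraMap o =>
      intro a
      refine ⟨(o • a) ⊗ₜ (1 : 𝕋), ?_⟩
      rw [tensorPi_tmul, map_one, Algebra.algebraMap_eq_smul_one, TensorProduct.smul_tmul]
    | add x y _ _ h1 h2 =>
      intro a
      obtain ⟨z1, hz1⟩ := h1 a
      obtain ⟨z2, hz2⟩ := h2 a
      exact ⟨z1 + z2, by rw [map_add, hz1, hz2, TensorProduct.tmul_add]⟩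
    | mul x y _ _ h1 h2 =>
      intro a
      obtain ⟨z1, hz1⟩ := h1 a
      obtain ⟨z2, hz2⟩ := h2 1
      refine ⟨z1 * z2, ?_⟩
      rw [map_mul, hz1, hz2, Algebra.TensorProduct.tmul_mul_tmul, mul_one]
  intro z
  induction z using TensorProduct.induction_on with
  | zero => exact ⟨0, map_zero _⟩
  | tmul a x => exact key x a
  | add z w hz hw =>
    obtain ⟨z', rfl⟩ := hz
    obtain ⟨w', rfl⟩ := hw
    exact ⟨z' + w', map_add _ _ _⟩

end Surj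

section Points

open IsLocalRing

variable (𝕋 : Type) [CommRing 𝕋] [Module.Finite ℤ 𝕋] [Module.Free ℤ 𝕋] [IsReduced 𝕋]
  (𝒪 : Type) [CommRing 𝒪] [IsDomain 𝒪] [IsDiscreteValuationRing 𝒪]
  [IsAdicComplete (maximalIdeal 𝒪) 𝒪] [Finite (ResidueField 𝒪)] [CharZero 𝒪]
  (K : Type) [Field K] [Algebra 𝒪 K] [IsFractionRing 𝒪 K]
  (T : Type) [CommRing T] [Algebra 𝒪 T] [Module.Finite 𝒪 T] [Module.Free 𝒪 T]
  (π : 𝕋 →+* T) (hπ : Algebra.adjoin 𝒪 (Set.range π) = ⊤)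

include hπ in
/-- `Frac 𝒪 ⊗ T` is a semisimple ring -/
theorem isSemisimpleRing_fracTensor : IsSemisimpleRing (K ⊗[𝒪] T) := by
  haveI : CharZero K := charZero_of_injective_algebraMap (IsFractionRing.injective 𝒪 K)
  haveI : IsReduced (K ⊗[ℤ] 𝕋) := isReduced_tensor 𝕋 K
  haveI : IsArtinianRing (K ⊗[ℤ] 𝕋) := IsArtinianRing.of_finite K _
  haveI : IsSemisimpleRing (K ⊗[ℤ] 𝕋) := IsArtinianRing.isSemisimpleRing_of_isReduced _
  exact RingHom.isSemisimpleRing_of_surjective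
    ((tensorPi 𝕋 𝒪 K T π : K ⊗[ℤ] 𝕋 →ₐ[ℤ] K ⊗[𝒪] T) : K ⊗[ℤ] 𝕋 →+* K ⊗[𝒪] T)
    (tensorPi_surjective 𝕋 𝒪 K T π hπ)

/-- `T → Frac 𝒪 ⊗ T` is injective -/
theorem one_tmul_injective :
    Function.Injective (fun t : T => (1 : K) ⊗ₜ[𝒪] t) := by
  have h := Module.Flat.rTensor_preserves_injective_linearMap (M := T)
    (Algebra.linearMap 𝒪 K) (IsFractionRing.injective 𝒪 K)
  intro t t' htt
  have h1 : (Algebra.linearMap 𝒪 K).rTensor T ((1 : 𝒪) ⊗ₜ[𝒪] t) =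
      (Algebra.linearMap 𝒪 K).rTensor T ((1 : 𝒪) ⊗ₜ[𝒪] t') := by
    rw [LinearMap.rTensor_tmul, LinearMap.rTensor_tmul, Algebra.linearMap_apply, map_one]
    exact htt
  have h2 := h h1
  have h3 := congrArg (TensorProduct.lid 𝒪 T) h2
  simpa using h3

/-- the point of `T` attached to a maximal ideal of `Frac 𝒪 ⊗ T` -/
theorem exists_point_of_isMaximal (𝔪 : Ideal (K ⊗[𝒪] T)) (h𝔪 : 𝔪.IsMaximal) :
    ∃ (B : Type) (_ : CommRing B) (_ : IsDomain B) (_ : IsDiscreteValuationRing B)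
      (_ : IsAdicComplete (maximalIdeal B) B) (_ : Finite (ResidueField B)) (_ : CharZero B)
      (_ : Algebra 𝒪 B) (_ : Module.Finite 𝒪 B) (_ : IsLocalHom (algebraMap 𝒪 B))
      (ψ : T →ₐ[𝒪] B), ∀ t : T, ψ t = 0 → (1 : K) ⊗ₜ[𝒪] t ∈ 𝔪 := by
  haveI := h𝔪
  letI : Field ((K ⊗[𝒪] T) ⧸ 𝔪) := Ideal.Quotient.field 𝔪
  haveI : CharZero K := charZero_of_injective_algebraMap (IsFractionRing.injective 𝒪 K)
  haveI : FiniteDimensional K ((K ⊗[𝒪] T) ⧸ 𝔪) := inferInstance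
  haveI : Algebra.IsSeparable K ((K ⊗[𝒪] T) ⧸ 𝔪) :=
    Algebra.IsAlgebraic.isSeparable_of_perfectField
  obtain ⟨i1, i2, i3, i4, i5, i6, i7⟩ :=
    Fermat.Agent.CFT.Local.exists_localExt_instances 𝒪 K ((K ⊗[𝒪] T) ⧸ 𝔪)
      ↥(integralClosure 𝒪 ((K ⊗[𝒪] T) ⧸ 𝔪))
  haveI := i1
  haveI := i2
  haveI := i4
  haveI := i5
  haveI := i6
  haveI hfinres : Finite (ResidueField ↥(integralClosure 𝒪 ((K ⊗[𝒪] T) ⧸ 𝔪))) := i7 inferInstance
  have hinjL : Function.Injective (algebraMap 𝒪 ((K ⊗[𝒪] T) ⧸ 𝔪)) := by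
    rw [IsScalarTower.algebraMap_eq 𝒪 K ((K ⊗[𝒪] T) ⧸ 𝔪)]
    exact (algebraMap K ((K ⊗[𝒪] T) ⧸ 𝔪)).injective.comp (IsFractionRing.injective 𝒪 K)
  have hinj : Function.Injective (algebraMap 𝒪 ↥(integralClosure 𝒪 ((K ⊗[𝒪] T) ⧸ 𝔪))) := by
    intro x y hxy
    apply hinjL
    exact congrArg Subtype.val hxy
  haveI : CharZero ↥(integralClosure 𝒪 ((K ⊗[𝒪] T) ⧸ 𝔪)) :=
    charZero_of_injective_algebraMap hinj
  let ψ₀ : T →ₐ[𝒪] (K ⊗[𝒪] T) ⧸ 𝔪 :=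
    (Ideal.Quotient.mkₐ 𝒪 𝔪).comp (Algebra.TensorProduct.includeRight : T →ₐ[𝒪] K ⊗[𝒪] T)
  have hint : ∀ t : T, ψ₀ t ∈ integralClosure 𝒪 ((K ⊗[𝒪] T) ⧸ 𝔪) := fun t =>
    (Algebra.IsIntegral.isIntegral (R := 𝒪) t).map ψ₀
  refine ⟨↥(integralClosure 𝒪 ((K ⊗[𝒪] T) ⧸ 𝔪)), inferInstance, inferInstance, inferInstance,
    inferInstance, hfinres, inferInstance, inferInstance, inferInstance, inferInstance,
    ψ₀.codRestrict _ hint, ?_⟩
  intro t ht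
  have h1 : ψ₀ t = 0 := by
    have := congrArg Subtype.val ht
    exact this
  have h2 : (Ideal.Quotient.mk 𝔪) ((1 : K) ⊗ₜ[𝒪] t) = 0 := h1
  exact Ideal.Quotient.eq_zero_iff_mem.1 h2

include hπ in
/-- (A) with an auxiliary fraction field -/
theorem exists_points_aux (K : Type) [Field K] [Algebra 𝒪 K] [IsFractionRing 𝒪 K] :
    ∃ (ι : Type) (_ : Fintype ι) (B : ι → Type) (_ : ∀ i, CommRing (B i))
      (_ : ∀ i, IsDomain (B i)) (_ : ∀ i, IsDiscreteValuationRing (B i))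
      (_ : ∀ i, IsAdicComplete (maximalIdeal (B i)) (B i))
      (_ : ∀ i, Finite (ResidueField (B i))) (_ : ∀ i, CharZero (B i))
      (_ : ∀ i, Algebra 𝒪 (B i)) (_ : ∀ i, Module.Finite 𝒪 (B i))
      (_ : ∀ i, IsLocalHom (algebraMap 𝒪 (B i)))
      (ψ : ∀ i, T →ₐ[𝒪] B i), ∀ t : T, (∀ i, ψ i t = 0) → t = 0 := by
  haveI : IsSemisimpleRing (K ⊗[𝒪] T) := isSemisimpleRing_fracTensor 𝕋 𝒪 K T π hπ
  haveI : IsArtinianRing (K ⊗[𝒪] T) := IsArtinianRing.of_finite K _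
  haveI : Finite (MaximalSpectrum (K ⊗[𝒪] T)) := inferInstance
  have hpt := fun 𝔪 : MaximalSpectrum (K ⊗[𝒪] T) =>
    exists_point_of_isMaximal 𝒪 K T 𝔪.asIdeal 𝔪.isMaximal
  choose B i1 i2 i3 i4 i5 i6 i7 i8 i9 ψ hψ using hpt
  refine ⟨MaximalSpectrum (K ⊗[𝒪] T), Fintype.ofFinite _, B, i1, i2, i3, i4, i5, i6, i7, i8, i9,
    ψ, ?_⟩
  intro t ht
  apply one_tmul_injective 𝒪 K T
  show (1 : K) ⊗ₜ[𝒪] t = (1 : K) ⊗ₜ[𝒪] (0 : T)
  rw [TensorProduct.tmul_zero]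
  have hmem : (1 : K) ⊗ₜ[𝒪] t ∈ Ring.jacobson (K ⊗[𝒪] T) := by
    rw [Ring.jacobson_eq_sInf_isMaximal]
    rw [Ideal.mem_sInf]
    intro 𝔪 h𝔪
    exact hψ ⟨𝔪, h𝔪⟩ t (ht ⟨𝔪, h𝔪⟩)
  rw [Ring.jacobson_eq_nilradical_of_krullDimLE_zero] at hmem
  exact (mem_nilradical.1 hmem).eq_zero

include hπ in
/-- **(A)**: enough points of `T`. -/
theorem exists_points :
    ∃ (ι : Type) (_ : Fintype ι) (B : ι → Type) (_ : ∀ i, CommRing (B i))
      (_ : ∀ i, IsDomain (B i)) (_ : ∀ i, IsDiscreteValuationRing (B i))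
      (_ : ∀ i, IsAdicComplete (maximalIdeal (B i)) (B i))
      (_ : ∀ i, Finite (ResidueField (B i))) (_ : ∀ i, CharZero (B i))
      (_ : ∀ i, Algebra 𝒪 (B i)) (_ : ∀ i, Module.Finite 𝒪 (B i))
      (_ : ∀ i, IsLocalHom (algebraMap 𝒪 (B i)))
      (ψ : ∀ i, T →ₐ[𝒪] B i), ∀ t : T, (∀ i, ψ i t = 0) → t = 0 :=
  exists_points_aux 𝕋 𝒪 T π hπ (FractionRing 𝒪)

end Points

end Fermat.Agent.S32
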