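/-
S32 [S32-REAL] — helper6 — small preparations for the realisation theorem:
* `isLocalHom_of_finite`: an algebra homomorphism between local algebras, the source finite over a
  local base mapping locally to the target, is local;
* `exists_pow_mem_of_finite_quotient`: a finite quotient of a local ring with `p ∈ 𝔪` kills a power
  of `p`;
* `linEndToAddEnd`, `torsAct`, `levelAct`: Galois actions as monoid homomorphisms to additive
  endomorphisms.
-/
import Mathlib
import Fermat.Agent.GR.TATE_lead_Seq
import Fermat.Prelude.Def_GaloisRep_Flat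

set_option autoImplicit false
set_option linter.unusedSectionVars false
set_option linter.style.haveILetI false

namespace Fermat.Agent.S32

open IsLocalRing Fermat.Agent.GR

local notation "GQ" => (AlgebraicClosure ℚ ≃ₐ[ℚ] AlgebraicClosure ℚ)

section Local

/-- algebra homomorphisms out of a finite local algebra over a local ring are local -/
theorem isLocalHom_of_finite {𝒪 T B : Type*} [CommRing 𝒪] [IsLocalRing 𝒪] [CommRing T]
    [IsLocalRing T] [CommRing B] [IsLocalRing B] [Algebra 𝒪 T] [Algebra 𝒪 B] [Module.Finite 𝒪 T]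
    [IsLocalHom (algebraMap 𝒪 B)] (f : T →ₐ[𝒪] B) : IsLocalHom (f : T →+* B) := by
  haveI : ((maximalIdeal B).comap (f : T →+* B)).IsPrime := Ideal.comap_isPrime _ _
  have h1 : ((maximalIdeal B).comap (f : T →+* B)).comap (algebraMap 𝒪 T) = maximalIdeal 𝒪 := by
    rw [Ideal.comap_comap]
    have : (f : T →+* B).comp (algebraMap 𝒪 T) = algebraMap 𝒪 B := f.comp_algebraMap
    rw [this]
    exact IsLocalRing.maximalIdeal_comap (algebraMap 𝒪 B)
  have h2 : ((maximalIdeal B).comap (f : T →+* B)).IsMaximal :=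
    Ideal.isMaximal_of_isIntegral_of_isMaximal_comap (R := 𝒪) _
      (by rw [h1]; exact maximalIdeal.isMaximal 𝒪)
  have h3 : (maximalIdeal B).comap (f : T →+* B) = maximalIdeal T := eq_maximalIdeal h2
  exact ((local_hom_TFAE (f : T →+* B)).out 0 4).mpr h3

/-- a finite quotient of a local ring of residue characteristic `p` kills a power of `p` -/
theorem exists_pow_mem_of_finite_quotient {T : Type*} [CommRing T] [IsLocalRing T] (c : T)
    (hc : c ∈ maximalIdeal T) (I : Ideal T) [Finite (T ⧸ I)] : ∃ n : ℕ, c ^ n ∈ I := by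
  obtain ⟨n, n', hne, h⟩ := Finite.exists_ne_map_eq_of_infinite
    (fun n : ℕ => Ideal.Quotient.mk I (c ^ n))
  wlog hlt : n < n' generalizing n n'
  · exact this n' n hne.symm h.symm (lt_of_le_of_ne (not_lt.1 hlt) hne.symm)
  refine ⟨n, ?_⟩
  have h1 : c ^ n - c ^ n' ∈ I := Ideal.Quotient.eq.1 h
  obtain ⟨k, hk⟩ := Nat.exists_eq_add_of_lt hlt
  have h2 : c ^ n - c ^ n' = c ^ n * (1 - c ^ (k + 1)) := by
    rw [hk, mul_sub, mul_one, ← pow_add, add_assoc]
  have hu : IsUnit (1 - c ^ (k + 1)) := by
    by_contra hnu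
    have hm : (1 - c ^ (k + 1)) ∈ maximalIdeal T := (mem_maximalIdeal _).2 hnu
    have hcm : c ^ (k + 1) ∈ maximalIdeal T := Ideal.pow_mem_of_mem _ hc _ (Nat.succ_pos k)
    have : (1 : T) ∈ maximalIdeal T := by
      have := Ideal.add_mem _ hm hcm
      rwa [sub_add_cancel] at this
    exact (maximalIdeal.isMaximal T).ne_top ((Ideal.eq_top_iff_one _).2 this)
  rw [h2] at h1
  obtain ⟨u, hu⟩ := hu
  have := Ideal.mul_mem_right (↑u⁻¹ : T) I h1
  rwa [mul_assoc, ← hu, Units.mul_inv, mul_one] at this

end Local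

section Acts

/-- linear endomorphisms as additive endomorphisms -/
def linEndToAddEnd (R M : Type*) [Semiring R] [AddCommMonoid M] [Module R M] :
    Module.End R M →* AddMonoid.End M where
  toFun f := f.toAddMonoidHom
  map_one' := rfl
  map_mul' _ _ := rfl

@[simp] theorem linEndToAddEnd_apply {R M : Type*} [Semiring R] [AddCommMonoid M] [Module R M]
    (f : Module.End R M) (x : M) : linEndToAddEnd R M f x = f x := rfl

/-- the Galois action on `n`-torsion -/
def torsAct (J : Type*) [AddCommGroup J] {G : Type*} [Monoid G] [DistribMulAction G J] (n : ℕ) :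
    G →* AddMonoid.End ↥(torsionNat J n) where
  toFun σ := torsionNat.map n (DistribMulAction.toAddMonoidEnd G J σ)
  map_one' := by
    refine AddMonoidHom.ext fun x => Subtype.ext ?_
    show (1 : G) • x.1 = x.1
    exact one_smul _ _
  map_mul' σ τ := by
    refine AddMonoidHom.ext fun x => Subtype.ext ?_
    show (σ * τ) • x.1 = σ • τ • x.1
    exact mul_smul _ _ _

@[simp] theorem torsAct_apply_coe (J : Type*) [AddCommGroup J] {G : Type*} [Monoid G]
    [DistribMulAction G J] (n : ℕ) (σ : G) (x : ↥(torsionNat J n)) :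
    ((torsAct J n σ x : ↥(torsionNat J n)) : J) = σ • x.1 := rfl

/-- the Galois action on `V / I V` -/
noncomputable def levelAct {A : Type} [CommRing A] [IsLocalRing A] (ρ : GaloisRepAdic A)
    (I : Ideal A) : GQ →* AddMonoid.End (ρ.V ⧸ (I • (⊤ : Submodule A ρ.V))) where
  toFun σ := (ρ.levelAction I σ).toAddMonoidHom
  map_one' := by
    refine AddMonoidHom.ext fun x => ?_
    obtain ⟨v, rfl⟩ := Submodule.Quotient.mk_surjective _ x
    show Submodule.Quotient.mk (ρ.ρ 1 v) = Submodule.Quotient.mk v
    rw [map_one]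
    rfl
  map_mul' σ τ := by
    refine AddMonoidHom.ext fun x => ?_
    obtain ⟨v, rfl⟩ := Submodule.Quotient.mk_surjective _ x
    show Submodule.Quotient.mk (ρ.ρ (σ * τ) v) = Submodule.Quotient.mk (ρ.ρ σ (ρ.ρ τ v))
    rw [map_mul]
    rfl

theorem levelAct_apply {A : Type} [CommRing A] [IsLocalRing A] (ρ : GaloisRepAdic A)
    (I : Ideal A) (σ : GQ) (x : ρ.V ⧸ (I • (⊤ : Submodule A ρ.V))) :
    levelAct ρ I σ x = ρ.levelAction I σ x := rfl

theorem levelAct_mk {A : Type} [CommRing A] [IsLocalRing A] (ρ : GaloisRepAdic A)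
    (I : Ideal A) (σ : GQ) (v : ρ.V) :
    levelAct ρ I σ (Submodule.Quotient.mk v) = Submodule.Quotient.mk (ρ.ρ σ v) := rfl

end Acts

end Fermat.Agent.S32
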