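/-
S32 [S32-REAL] — helper6 — **(B) the full eigensystem attached to a character of the Hecke
algebra** (the first half of the proof of S30, `GR/S30TOP_lead`, with the system made explicit).

`exists_system_of_character`: a ring homomorphism `χ : 𝕋^{(S)} → 𝒪'` into a complete DVR extends,
over a finite extension `B` of `𝒪'`, to a system of eigenvalues `a : Nat.Primes → B` of ALL the
Hecke operators `T_ℓ`, `U_ℓ` occurring in `Hom_par(Γ₀(N), Frac B)`.
-/
import Mathlib
import Fermat.Agent.GR.S30TOP_lead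

set_option autoImplicit false
set_option linter.unusedSectionVars false
set_option linter.unusedVariables false
set_option linter.style.haveILetI false

namespace Fermat.Agent.S32

open CongruenceSubgroup ModularCurve ModularCurve.Period Polynomial IsLocalRing Fermat.Agent.GR

open scoped MatrixGroups

variable {N : ℕ} [NeZero N]

/-- a finite extension `L` of the fraction field over which an integral system occurs ⇒ the system
over `B := integralClosure A L`. -/
theorem exists_ext_system_of_finite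
    (A : Type) [CommRing A] [IsDomain A] [IsDiscreteValuationRing A]
    [IsAdicComplete (maximalIdeal A) A] [Finite (ResidueField A)] [CharZero A]
    (K : Type) [Field K] [Algebra A K] [IsFractionRing A K]
    (L : Type) [Field L] [Algebra K L] [FiniteDimensional K L] [Algebra A L] [IsScalarTower A K L]
    (aL : Nat.Primes → L) (hint : ∀ ℓ, IsIntegral A (aL ℓ)) (hocc : eigenPar N L aL ≠ ⊥) :
    ∃ (B : Type) (_ : CommRing B) (_ : IsDomain B) (_ : IsDiscreteValuationRing B)
      (_ : IsAdicComplete (maximalIdeal B) B) (_ : Finite (ResidueField B)) (_ : CharZero B)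
      (_ : Algebra A B) (_ : Module.Finite A B) (_ : IsLocalHom (algebraMap A B)),
      Function.Injective (algebraMap A B) ∧
      ∃ (_ : Algebra B L) (_ : IsFractionRing B L) (a : Nat.Primes → B),
        eigenPar N L (mapSys B L a) ≠ ⊥ ∧
        ∀ (ℓ : Nat.Primes) (x : A), algebraMap A L x = aL ℓ → a ℓ = algebraMap A B x := by
  haveI : CharZero K := charZero_of_injective_algebraMap (IsFractionRing.injective A K)
  haveI : Algebra.IsSeparable K L := Algebra.IsAlgebraic.isSeparable_of_perfectField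
  obtain ⟨i1, i2, i3, i4, i5, i6, i7⟩ :=
    Fermat.Agent.CFT.Local.exists_localExt_instances A K L ↥(integralClosure A L)
  haveI := i1
  haveI := i2
  haveI := i3
  haveI := i4
  haveI := i5
  haveI := i6
  haveI hfinres : Finite (ResidueField ↥(integralClosure A L)) := i7 inferInstance
  have hinjL : Function.Injective (algebraMap A L) := by
    rw [IsScalarTower.algebraMap_eq A K L]
    exact (algebraMap K L).injective.comp (IsFractionRing.injective A K)
  have hinj : Function.Injective (algebraMap A ↥(integralClosure A L)) := by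
    intro x y hxy
    apply hinjL
    exact congrArg Subtype.val hxy
  haveI : CharZero ↥(integralClosure A L) := charZero_of_injective_algebraMap hinj
  let a'' : Nat.Primes → ↥(integralClosure A L) := fun ℓ => ⟨aL ℓ, hint ℓ⟩
  have hsys : mapSys ↥(integralClosure A L) L a'' = aL := rfl
  refine ⟨↥(integralClosure A L), inferInstance, inferInstance, inferInstance, inferInstance,
    hfinres, inferInstance, inferInstance, inferInstance, inferInstance, hinj, inferInstance,
    inferInstance, a'', ?_, ?_⟩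
  · rw [hsys]; exact hocc
  · intro ℓ x hx
    exact Subtype.ext hx.symm

/-- **(B)**: the full system of eigenvalues over a finite extension, attached to a character of
the Hecke algebra away from `S`. -/
theorem exists_system_of_character (S : Finset ℕ)
    (hNS : ∀ q : ℕ, q.Prime → q ∣ N → q ∈ S)
    (𝒪' : Type) [CommRing 𝒪'] [IsDomain 𝒪'] [IsDiscreteValuationRing 𝒪']
    [IsAdicComplete (IsLocalRing.maximalIdeal 𝒪') 𝒪'] [Finite (IsLocalRing.ResidueField 𝒪')]
    [CharZero 𝒪']
    (χ : CuspForm.heckeAlgebra N 2 (↑S : Set ℕ) →+* 𝒪') :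
    ∃ (B : Type) (_ : CommRing B) (_ : IsDomain B) (_ : IsDiscreteValuationRing B)
      (_ : IsAdicComplete (maximalIdeal B) B) (_ : Finite (ResidueField B)) (_ : CharZero B)
      (_ : Algebra 𝒪' B) (_ : Module.Finite 𝒪' B) (_ : IsLocalHom (algebraMap 𝒪' B)),
      Function.Injective (algebraMap 𝒪' B) ∧
      ∃ (L : Type) (_ : Field L) (_ : Algebra B L) (_ : IsFractionRing B L)
        (a : Nat.Primes → B), eigenPar N L (mapSys B L a) ≠ ⊥ ∧
        ∀ (ℓ : ℕ) (hℓ : ℓ.Prime) (hℓN : ¬ ℓ ∣ N) (hℓS : ℓ ∉ (↑S : Set ℕ)),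
          a ⟨ℓ, hℓ⟩ = algebraMap 𝒪' B (χ (CuspForm.heckeAlgebra.T hℓ hℓN hℓS)) := by
  haveI : CharZero (FractionRing 𝒪') :=
    charZero_of_injective_algebraMap (IsFractionRing.injective 𝒪' (FractionRing 𝒪'))
  -- the character over an algebraic closure
  obtain ⟨aF, hoccF, haT, -⟩ := exists_eigenPar_of_character (N := N)
    (F := AlgebraicClosure (FractionRing 𝒪')) (↑S : Set ℕ)
    ((algebraMap 𝒪' (AlgebraicClosure (FractionRing 𝒪'))).comp χ)
  have hint𝒪 : ∀ ℓ, IsIntegral 𝒪' (aF ℓ) := fun ℓ =>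
    isIntegral_of_isIntegral_int (isIntegral_of_eigenPar_ne_bot hoccF ℓ)
  have hintK : ∀ ℓ, IsIntegral (FractionRing 𝒪') (aF ℓ) := fun ℓ =>
    isIntegral_of_isIntegral_int (isIntegral_of_eigenPar_ne_bot hoccF ℓ)
  -- the finite extension generated by the eigenvalues at the primes in `S`
  have hfinset : ({ℓ : Nat.Primes | (ℓ : ℕ) ∈ S}).Finite := by
    refine Set.Finite.of_finite_image (f := fun ℓ : Nat.Primes => (ℓ : ℕ)) ?_
      (fun x _ y _ hxy => Subtype.ext hxy)
    refine S.finite_toSet.subset ?_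
    rintro _ ⟨ℓ, hℓ, rfl⟩
    exact hℓ
  haveI : Finite ↑(aF '' {ℓ : Nat.Primes | (ℓ : ℕ) ∈ S}) := (hfinset.image aF).to_subtype
  haveI hfd : FiniteDimensional (FractionRing 𝒪')
      ↥(IntermediateField.adjoin (FractionRing 𝒪') (aF '' {ℓ : Nat.Primes | (ℓ : ℕ) ∈ S})) :=
    IntermediateField.finiteDimensional_adjoin (by
      rintro _ ⟨ℓ, _, rfl⟩
      exact hintK ℓ)
  haveI : IsScalarTower 𝒪' (FractionRing 𝒪')
      ↥(IntermediateField.adjoin (FractionRing 𝒪') (aF '' {ℓ : Nat.Primes | (ℓ : ℕ) ∈ S})) :=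
    IsScalarTower.of_algebraMap_eq fun x => Subtype.ext (by
      show algebraMap 𝒪' (AlgebraicClosure (FractionRing 𝒪')) x = _
      rw [IsScalarTower.algebraMap_apply 𝒪' (FractionRing 𝒪') (AlgebraicClosure (FractionRing 𝒪'))]
      rfl)
  have hmem : ∀ ℓ : Nat.Primes, aF ℓ ∈
      IntermediateField.adjoin (FractionRing 𝒪') (aF '' {ℓ : Nat.Primes | (ℓ : ℕ) ∈ S}) := by
    intro ℓ
    by_cases hℓS : (ℓ : ℕ) ∈ S
    · exact IntermediateField.subset_adjoin _ _ ⟨ℓ, hℓS, rfl⟩
    · have hℓN : ¬ (ℓ : ℕ) ∣ N := fun h => hℓS (hNS _ ℓ.2 h)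
      have h := haT ℓ.1 ℓ.2 hℓN (by simpa using hℓS)
      have h' : aF ℓ = aF ⟨ℓ.1, ℓ.2⟩ := rfl
      rw [h', h, RingHom.comp_apply,
        IsScalarTower.algebraMap_apply 𝒪' (FractionRing 𝒪') (AlgebraicClosure (FractionRing 𝒪'))]
      exact IntermediateField.algebraMap_mem _ _
  let aL : Nat.Primes →
      ↥(IntermediateField.adjoin (FractionRing 𝒪') (aF '' {ℓ : Nat.Primes | (ℓ : ℕ) ∈ S})) :=
    fun ℓ => ⟨aF ℓ, hmem ℓ⟩
  haveI : IsScalarTower 𝒪'
      ↥(IntermediateField.adjoin (FractionRing 𝒪') (aF '' {ℓ : Nat.Primes | (ℓ : ℕ) ∈ S}))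
      (AlgebraicClosure (FractionRing 𝒪')) :=
    IsScalarTower.of_algebraMap_eq fun x => rfl
  have hintL : ∀ ℓ, IsIntegral 𝒪' (aL ℓ) := by
    intro ℓ
    have h := hint𝒪 ℓ
    have h2 : aF ℓ = algebraMap
      ↥(IntermediateField.adjoin (FractionRing 𝒪') (aF '' {ℓ : Nat.Primes | (ℓ : ℕ) ∈ S}))
      (AlgebraicClosure (FractionRing 𝒪')) (aL ℓ) := rfl
    rw [h2] at h
    exact (isIntegral_algebraMap_iff (RingHom.injective _)).1 h
  have hoccL : eigenPar N
      ↥(IntermediateField.adjoin (FractionRing 𝒪') (aF '' {ℓ : Nat.Primes | (ℓ : ℕ) ∈ S})) aL ≠ ⊥ := by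
    rw [← eigenPar_ne_bot_map_iff _ (AlgebraicClosure (FractionRing 𝒪'))]
    exact hoccF
  obtain ⟨B, i1, i2, i3, i4, i5, i6, i7, i8, i9, hinj, j1, j2, a, hocc, ha⟩ :=
    exists_ext_system_of_finite (N := N) 𝒪' (FractionRing 𝒪')
      ↥(IntermediateField.adjoin (FractionRing 𝒪') (aF '' {ℓ : Nat.Primes | (ℓ : ℕ) ∈ S}))
      aL hintL hoccL
  refine ⟨B, i1, i2, i3, i4, i5, i6, i7, i8, i9, hinj, _, inferInstance, j1, j2, a, hocc, ?_⟩
  intro ℓ hℓ hℓN hℓS
  refine ha ⟨ℓ, hℓ⟩ (χ (CuspForm.heckeAlgebra.T hℓ hℓN hℓS)) ?_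
  apply Subtype.ext
  show algebraMap 𝒪' (AlgebraicClosure (FractionRing 𝒪')) _ = aF ⟨ℓ, hℓ⟩
  rw [haT ℓ hℓ hℓN hℓS]
  rfl

end Fermat.Agent.S32
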