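/-
S32 [S32-REAL] — helper6 — **(F) the reduction maps `P → J[p^m]`.**

For `D : KapData J Γ p` (stage (I), `P = parabolicHoms ℤ_[p] Γ ℤ_[p] ≃ T_p J`):
`D.redTors m : P →+ J[p^m]` is the `m`-th component of the Tate sequence; it is equivariant for
the transported action `D.rho` and its kernel is `p^m P`.
-/
import Mathlib
import Fermat.Agent.GR.TATE_lead_Gal

set_option autoImplicit false
set_option linter.unusedSectionVars false

namespace Fermat.Agent.GR

open ModularCurve.Period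

open scoped MatrixGroups

namespace KapData

variable {J : Type*} [AddCommGroup J] {Γ : Subgroup SL(2, ℤ)} {p : ℕ} [hp : Fact p.Prime]
  (D : KapData J Γ p)

/-- the reduction `P → J[p^m]`: the `m`-th component of the corresponding Tate sequence -/
noncomputable def redTors (m : ℕ) :
    ↥(parabolicHoms ℤ_[p] Γ ℤ_[p]) →+ ↥(torsionNat J (p ^ m)) :=
  (TateSeq.comp m).comp D.phiEquiv.symm.toAddMonoidHom

theorem redTors_phi (m : ℕ) (x : ↥(TateSeq J p)) : D.redTors m (D.phi x) = TateSeq.comp m x := by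
  show TateSeq.comp m (D.phiEquiv.symm (D.phiEquiv x)) = _
  rw [AddEquiv.symm_apply_apply]

theorem kap_redTors (m : ℕ) (ψ : ↥(parabolicHoms ℤ_[p] Γ ℤ_[p])) :
    D.kap m (D.redTors m ψ) = (PadicInt.toZModPow m).toAddMonoidHom.comp ψ.1 := by
  obtain ⟨x, rfl⟩ := D.phi_surjective ψ
  rw [redTors_phi, D.toZModPow_comp_phi]

theorem redTors_eq_zero_iff (m : ℕ) (ψ : ↥(parabolicHoms ℤ_[p] Γ ℤ_[p])) :
    D.redTors m ψ = 0 ↔ ∃ ψ' : ↥(parabolicHoms ℤ_[p] Γ ℤ_[p]), ψ = (p : ℤ_[p]) ^ m • ψ' := by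
  constructor
  · intro h
    have h1 := D.kap_redTors m ψ
    rw [h, map_zero] at h1
    refine exists_eq_smul_of_comp_eq_zero ℤ_[p] Γ ℤ_[p] (PadicInt.toZModPow m).toAddMonoidHom
      ((p : ℤ_[p]) ^ m) ?_ ?_ ψ h1.symm
    · intro a b hab
      have hp0 : ((p : ℤ_[p]) ^ m) ≠ 0 := pow_ne_zero _ (Nat.cast_ne_zero.2 hp.out.ne_zero)
      exact mul_left_cancel₀ hp0 hab
    · intro a ha
      have : a ∈ RingHom.ker (PadicInt.toZModPow m (p := p)) := ha
      rw [PadicInt.ker_toZModPow, Ideal.mem_span_singleton'] at this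
      obtain ⟨a', ha'⟩ := this
      exact ⟨a', by rw [← ha', smul_eq_mul, mul_comm]⟩
  · rintro ⟨ψ', rfl⟩
    apply D.inj m
    rw [kap_redTors, map_zero]
    refine AddMonoidHom.ext fun γ => ?_
    show PadicInt.toZModPow m ((p : ℤ_[p]) ^ m * ψ'.1 γ) = 0
    rw [map_mul, map_pow, map_natCast]
    have : ((p : ZMod (p ^ m)) ^ m) = 0 := by
      rw [← Nat.cast_pow]; exact ZMod.natCast_self (p ^ m)
    rw [this, zero_mul]

variable {G : Type*} [Group G] [DistribMulAction G J]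

/-- equivariance of the reduction -/
theorem redTors_rho (m : ℕ) (σ : G) (ψ : ↥(parabolicHoms ℤ_[p] Γ ℤ_[p])) :
    D.redTors m (D.rho σ ψ) =
      torsionNat.map (p ^ m) (DistribMulAction.toAddMonoidEnd G J σ) (D.redTors m ψ) := by
  obtain ⟨x, rfl⟩ := D.phi_surjective ψ
  rw [D.rho_phi, redTors_phi, redTors_phi]
  rfl

end KapData

end Fermat.Agent.GR
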