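/-
S32 [S32-REAL] — helper6 — **the realisation theorem.**

`H` a Hecke–Galois datum of level `N` over `T` (`p` odd, `p ∈ S`, primes of `N` in `S`), `Q` a class
of Galois modules closed under subobjects, quotients and products and containing all
`J₀(N)[p^m]`.  Then every finite level `V / I V` of `H.ρ` lies in `Q` (`realise_datum`).
-/
import Mathlib
import Fermat.Agent.S32.Core_helper6
import Fermat.Agent.S32.Prep_helper6
import Fermat.Agent.S32.PointRep_helper6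
import Fermat.Agent.S32.System_helper6
import Fermat.Agent.S32.Points_helper6
import Fermat.Agent.S32.Approx_helper6
import Fermat.Agent.S32.ARSemi_helper6
import Fermat.Agent.S32.Tate_helper6
import Fermat.Agent.GR.PET_helper5_Main
import Fermat.Agent.GR.UPTS_helper2_Hecke
import Fermat.Agent.GR.PADICALG_lead
import Fermat.Agent.CFT.Local.Kummer_helper1

set_option autoImplicit false
set_option linter.unusedSectionVars false
set_option linter.unusedVariables false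
set_option linter.style.haveILetI false

namespace Fermat.Agent.S32

open CongruenceSubgroup ModularCurve ModularCurve.Period Polynomial IsLocalRing Fermat.Agent.GR
  CuspForm

open scoped MatrixGroups

local notation "Ω" => AlgebraicClosure ℚ
local notation "GQ" => (AlgebraicClosure ℚ ≃ₐ[ℚ] AlgebraicClosure ℚ)

variable {p : ℕ} {N : ℕ} [NeZero N] {S : Finset ℕ}
  {𝒪 : Type} [CommRing 𝒪] [IsDomain 𝒪] [IsDiscreteValuationRing 𝒪]
  [IsAdicComplete (IsLocalRing.maximalIdeal 𝒪) 𝒪]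
  {θ : CuspForm.heckeAlgebra N 2 (↑S : Set ℕ) →+* IsLocalRing.ResidueField 𝒪}
  {T : Type} [CommRing T] [IsLocalRing T] [IsNoetherianRing T]
  [IsAdicComplete (IsLocalRing.maximalIdeal T) T] [Algebra 𝒪 T] [IsLocalHom (algebraMap 𝒪 T)]
  [Module.Finite 𝒪 T] [Module.Free 𝒪 T]

/-- one point of `T` together with a full eigensystem over a finite extension -/
theorem exists_point_system [Finite (ResidueField 𝒪)] [CharZero 𝒪]
    (hNS : ∀ q : ℕ, q.Prime → q ∣ N → q ∈ S)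
    (H : CuspForm.HeckeGaloisRepDatum N (↑S : Set ℕ) 𝒪 θ T)
    (B₀ : Type) [CommRing B₀] [IsDomain B₀] [IsDiscreteValuationRing B₀]
    [IsAdicComplete (maximalIdeal B₀) B₀] [Finite (ResidueField B₀)] [CharZero B₀]
    [Algebra 𝒪 B₀] [Module.Finite 𝒪 B₀] [IsLocalHom (algebraMap 𝒪 B₀)] (ψ₀ : T →ₐ[𝒪] B₀) :
    ∃ (B : Type) (_ : CommRing B) (_ : IsDomain B) (_ : IsDiscreteValuationRing B)
      (_ : IsAdicComplete (maximalIdeal B) B) (_ : Finite (ResidueField B)) (_ : CharZero B)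
      (ψ : T →+* B) (_ : IsLocalHom ψ), ψ.Finite ∧ (∀ t : T, ψ t = 0 → ψ₀ t = 0) ∧
      ∃ (L : Type) (_ : Field L) (_ : Algebra B L) (_ : IsFractionRing B L)
        (a : Nat.Primes → B), eigenPar N L (mapSys B L a) ≠ ⊥ ∧
        ∀ (ℓ : ℕ) (hℓ : ℓ.Prime) (hℓN : ¬ ℓ ∣ N) (hℓS : ℓ ∉ (↑S : Set ℕ)),
          a ⟨ℓ, hℓ⟩ = ψ (H.π (CuspForm.heckeAlgebra.T hℓ hℓN hℓS)) := by
  obtain ⟨B, i1, i2, i3, i4, i5, i6, i7, i8, i9, hinj, L, j1, j2, j3, a, hocc, ha⟩ :=
    exists_system_of_character (N := N) S hNS B₀ ((ψ₀ : T →+* B₀).comp H.π)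
  haveI : IsLocalHom (ψ₀ : T →+* B₀) := isLocalHom_of_finite ψ₀
  refine ⟨B, i1, i2, i3, i4, i5, i6, (algebraMap B₀ B).comp (ψ₀ : T →+* B₀), inferInstance,
    finite_comp_point ψ₀, ?_, L, j1, j2, j3, a, hocc, ?_⟩
  · intro t ht
    apply hinj
    rw [map_zero]
    exact ht
  · intro ℓ hℓ hℓN hℓS
    rw [ha ℓ hℓ hℓN hℓS]
    rfl

/-- enough points of `T`, each with a full eigensystem -/
theorem exists_point_systems [Finite (ResidueField 𝒪)] [CharZero 𝒪]
    (hNS : ∀ q : ℕ, q.Prime → q ∣ N → q ∈ S)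
    (H : CuspForm.HeckeGaloisRepDatum N (↑S : Set ℕ) 𝒪 θ T) :
    ∃ (ι : Type) (_ : Fintype ι) (B : ι → Type) (_ : ∀ i, CommRing (B i))
      (_ : ∀ i, IsDomain (B i)) (_ : ∀ i, IsDiscreteValuationRing (B i))
      (_ : ∀ i, IsAdicComplete (maximalIdeal (B i)) (B i))
      (_ : ∀ i, Finite (ResidueField (B i))) (_ : ∀ i, CharZero (B i))
      (ψ : ∀ i, T →+* B i) (_ : ∀ i, IsLocalHom (ψ i)), (∀ i, (ψ i).Finite) ∧
      (∀ t : T, (∀ i, ψ i t = 0) → t = 0) ∧
      ∀ i, ∃ (L : Type) (_ : Field L) (_ : Algebra (B i) L) (_ : IsFractionRing (B i) L)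
        (a : Nat.Primes → B i), eigenPar N L (mapSys (B i) L a) ≠ ⊥ ∧
        ∀ (ℓ : ℕ) (hℓ : ℓ.Prime) (hℓN : ¬ ℓ ∣ N) (hℓS : ℓ ∉ (↑S : Set ℕ)),
          a ⟨ℓ, hℓ⟩ = ψ i (H.π (CuspForm.heckeAlgebra.T hℓ hℓN hℓS)) := by
  haveI := heckeAlgebra_moduleFinite N 2 (↑S : Set ℕ)
  haveI := heckeAlgebra_moduleFree N 2 (↑S : Set ℕ)
  haveI : IsReduced ↥(CuspForm.heckeAlgebra N 2 (↑S : Set ℕ)) :=
    isReduced_heckeAlgebra N (↑S : Set ℕ) (fun q hq hqN => Finset.mem_coe.mpr (hNS q hq hqN))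
  obtain ⟨ι, iF, B₀, i1, i2, i3, i4, i5, i6, i7, i8, i9, ψ₀, hψ₀⟩ :=
    exists_points ↥(CuspForm.heckeAlgebra N 2 (↑S : Set ℕ)) 𝒪 T H.π H.adjoin_range_π
  have hpt := fun i => exists_point_system hNS H (B₀ i) (ψ₀ i)
  choose B k1 k2 k3 k4 k5 k6 ψ k7 hfin hker hsys using hpt
  refine ⟨ι, iF, B, k1, k2, k3, k4, k5, k6, ψ, k7, hfin, ?_, hsys⟩
  intro t ht
  exact hψ₀ t fun i => hker i t (ht i)

/-- **the realisation theorem**: every finite level of `H.ρ` lies in any class of Galois modules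
closed under subobjects, quotients and products and containing the `J₀(N)[p^m]`. -/
theorem realise_datum [hp : Fact p.Prime] [Finite (ResidueField 𝒪)] [CharZero 𝒪]
    (I : StageIData N p) (hp2 : p ≠ 2) (hp𝒪 : (p : 𝒪) ∈ maximalIdeal 𝒪)
    (hpS : p ∈ S) (hNS : ∀ q : ℕ, q.Prime → q ∣ N → q ∈ S)
    (H : CuspForm.HeckeGaloisRepDatum N (↑S : Set ℕ) 𝒪 θ T)
    {Q : ∀ (M : Type) [AddCommGroup M], (GQ →* AddMonoid.End M) → Prop} (hQ : FlatClosure Q)
    (h19 : ∀ m : ℕ, Q ↥(torsionNat (JZero N) (p ^ m)) (torsAct (JZero N) (p ^ m)))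
    (IT : Ideal T) [Finite (T ⧸ IT)] :
    Q (H.ρ.V ⧸ IT • (⊤ : Submodule T H.ρ.V)) (levelAct H.ρ IT) := by
  classical
  obtain ⟨ι, iF, B, i1, i2, i3, i4, i5, i6, ψ, i7, hfin, hinj, hsys⟩ :=
    exists_point_systems hNS H
  -- `p` in the maximal ideals
  have hpT : (p : T) ∈ maximalIdeal T := by
    have := map_nonunit (algebraMap 𝒪 T) _ hp𝒪
    rwa [map_natCast] at this
  have hpB : ∀ i, (p : B i) ∈ maximalIdeal (B i) := fun i => by
    have := map_nonunit (ψ i) _ hpT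
    rwa [map_natCast] at this
  letI algB : ∀ i, Algebra ℤ_[p] (B i) := fun i =>
    (padicToComplete p (maximalIdeal (B i)) (hpB i)).toAlgebra
  -- the embeddings
  have hemb : ∀ i, ∃ e : H.ρ.V →+ (Fin 2 → ↥(parabolicHoms (B i) (Gamma0 N) (B i))),
      (∀ (σ : GQ) (v : H.ρ.V) (k : Fin 2),
        e (H.ρ.ρ σ v) k = rhoM N p (B i) I.rhoP σ (e v k)) ∧
      (∀ (t : T) (v : H.ρ.V) (k : Fin 2), e (t • v) k = ψ i t • e v k) ∧
      (∀ v : H.ρ.V, e v = 0 → ∀ j, ψ i ((repBasis H.ρ).repr v j) = 0) := by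
    intro i
    obtain ⟨L, j1, j2, j3, a, hocc, ha⟩ := hsys i
    exact exists_pointEmbed I hp2 hpS hNS H (B i) (hpB i) (ψ i) L a hocc ha
  choose e heσ hlin hker using hemb
  have hinjV : ∀ v : H.ρ.V, (∀ i, e i v = 0) → v = 0 := by
    intro v hv
    apply (repBasis H.ρ).repr.injective
    rw [map_zero]
    ext k
    exact hinj _ fun i => hker i v (hv i) k
  -- Artin–Rees
  obtain ⟨a₀, ha₀⟩ := exists_pow_mem_of_finite_quotient (p : T) hpT IT
  obtain ⟨m₀, hm₀⟩ := exists_pow_of_artinRees_semilinear IT ψ hfin e hlin hinjV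
    ((p : T) ^ a₀) ha₀
  set m : ℕ := a₀ * m₀ with hm
  have hψc : ∀ i, ψ i (((p : T) ^ a₀) ^ m₀) = (p : B i) ^ m := fun i => by
    rw [map_pow, map_pow, map_natCast, ← pow_mul]
  -- representatives of `B i / p^m`
  have hpne : ∀ i, (p : B i) ^ m ≠ 0 := fun i =>
    pow_ne_zero _ (Nat.cast_ne_zero.2 hp.out.ne_zero)
  haveI : ∀ i, Finite (B i ⧸ Ideal.span {(p : B i) ^ m}) := fun i =>
    Fermat.Agent.CFT.LocalKummer.finite_quotient_span_singleton (B i) (hpne i)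
  letI : ∀ i, Fintype (B i ⧸ Ideal.span {(p : B i) ^ m}) := fun i => Fintype.ofFinite _
  let lift : ∀ i, (B i ⧸ Ideal.span {(p : B i) ^ m}) → B i := fun i x => Quotient.out x
  have hlift : ∀ i (b : B i), ∃ (x : B i ⧸ Ideal.span {(p : B i) ^ m}) (b' : B i),
      b = lift i x + (p : B i) ^ m * b' := by
    intro i b
    have h1 : b - lift i (Ideal.Quotient.mk _ b) ∈ Ideal.span {(p : B i) ^ m} := by
      rw [← Ideal.Quotient.eq]
      exact (Ideal.Quotient.mk_out _).symm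
    obtain ⟨b', hb'⟩ := Ideal.mem_span_singleton'.1 h1
    exact ⟨Ideal.Quotient.mk _ b, b', by rw [mul_comm, hb']; ring⟩
  -- the realisation lemma
  refine hQ.realise IT ((linEndToAddEnd T H.ρ.V).comp H.ρ.ρ) (levelAct H.ρ IT)
    (fun σ v => rfl)
    (B := B) (M := fun i => ↥(parabolicHoms (B i) (Gamma0 N) (B i)))
    (fun i => (linEndToAddEnd (B i) ↥(parabolicHoms (B i) (Gamma0 N) (B i))).comp
      (rhoM N p (B i) I.rhoP))
    (fun i => (p : B i) ^ m) ?_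
    ((linEndToAddEnd ℤ_[p] ↥(parabolicHoms ℤ_[p] (Gamma0 N) ℤ_[p])).comp I.rhoP)
    (torsAct (JZero N) (p ^ m))
    (DistribSMul.toAddMonoidHom ↥(parabolicHoms ℤ_[p] (Gamma0 N) ℤ_[p]) ((p : ℤ_[p]) ^ m))
    (I.D.redTors m) ?_ ?_
    (X := fun i => B i ⧸ Ideal.span {(p : B i) ^ m})
    (fun i => approxMap p (B i) (Gamma0 N) (lift i)) ?_ ?_ ?_ e ?_ ?_ (h19 m)
  · -- `actM` commutes with `p^m`
    intro i σ μ
    exact map_smul (rhoM N p (B i) I.rhoP σ) _ μ
  · -- equivariance of the reduction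
    intro σ ψ'
    exact I.D.redTors_rho m σ ψ'
  · -- kernel of the reduction
    intro ψ' h
    exact (I.D.redTors_eq_zero_iff m ψ').1 h
  · -- equivariance of the approximation
    intro i σ y
    exact (parExt_approxMap p (B i) (Gamma0 N) (lift i) (I.rhoP σ) y).symm
  · -- divisibility
    intro i y y' h
    exact approxMap_eq_smul p (B i) (Gamma0 N) (lift i) m y y' h
  · -- approximation
    intro i μ
    exact exists_approx p (B i) (Gamma0 N) (lift i) ((p : B i) ^ m) (hlift i) μ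
  · -- equivariance of the embeddings
    intro i σ v k
    exact heσ i σ v k
  · -- Artin–Rees
    intro v hv
    apply hm₀ v
    intro i k
    obtain ⟨μ, hμ⟩ := hv i k
    exact ⟨μ, by rw [hψc i]; exact hμ⟩

end Fermat.Agent.S32
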