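/-
S32 [S32-REAL] — helper6 — **S32 from S19.**

`s32_of_s19`: the frozen statement S32 (flatness at `p` of the Galois representation of a
Hecke–Galois datum of level `N`, `p ∤ N` odd) follows from the frozen statement S19 at level `N`
and the prime `p` (all exponents `k`): `J₀(N)[p^k]` is the group of points of a finite flat group
scheme over `ℤ_(p)`.  Ingredients: the realisation theorem `realise_datum` and the closure of flat
Galois modules under subobjects, quotients and products (helper8's `FG/HOPF_helper8_Flat`).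
-/
import Mathlib
import Fermat.Agent.S32.Real_helper6
import Fermat.Agent.FG.HOPF_helper8_Flat
import Fermat.Agent.TW.FlatModule_helper6
import Fermat.Agent.GR.ASM_helper8_Done

set_option autoImplicit false
set_option linter.unusedSectionVars false
set_option linter.unusedVariables false
set_option linter.style.haveILetI false

namespace Fermat.Agent.S32

open CongruenceSubgroup ModularCurve IsLocalRing Fermat.Agent.GR Fermat.Agent.TW CuspForm

local notation "Ω" => AlgebraicClosure ℚ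
local notation "GQ" => (AlgebraicClosure ℚ ≃ₐ[ℚ] AlgebraicClosure ℚ)

/-- the frozen statement S19 at level `N`, prime `p` and exponent `k` -/
def S19At (N : ℕ) [NeZero N] (p k : ℕ) : Prop :=
  ∃ (H : Type) (_ : CommRing H) (_ : HopfAlgebra (GaloisRep.ratLocalizedAt p) H),
    Module.Finite (GaloisRep.ratLocalizedAt p) H ∧ Module.Flat (GaloisRep.ratLocalizedAt p) H ∧
    Coalgebra.IsCocomm (GaloisRep.ratLocalizedAt p) H ∧
    ∃ e : WithConv (H →ₐ[GaloisRep.ratLocalizedAt p] AlgebraicClosure ℚ) ≃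
        ↥(Submodule.torsionBy ℤ (JZero N) ((p : ℤ) ^ k)),
      (∀ f g, e (f * g) = e f + e g) ∧
      ∀ (σ : AlgebraicClosure ℚ ≃ₐ[ℚ] AlgebraicClosure ℚ)
        (f g : WithConv (H →ₐ[GaloisRep.ratLocalizedAt p] AlgebraicClosure ℚ)),
        (∀ h : H, g h = σ (f h)) → ((e g : JZero N)) = σ • (e f : JZero N)

/-- `J[(p:ℤ)^k] ≃ J[p^k]` -/
def torsionByEquivTorsionNat (J : Type*) [AddCommGroup J] (p k : ℕ) :
    ↥(Submodule.torsionBy ℤ J ((p : ℤ) ^ k)) ≃+ ↥(torsionNat J (p ^ k)) where
  toFun x := ⟨x.1, by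
    have h := x.2
    rw [Submodule.mem_torsionBy_iff] at h
    show (p ^ k : ℕ) • x.1 = 0
    rw [← natCast_zsmul, Nat.cast_pow]
    exact h⟩
  invFun x := ⟨x.1, by
    have h : (p ^ k : ℕ) • x.1 = 0 := x.2
    rw [Submodule.mem_torsionBy_iff, ← Nat.cast_pow, natCast_zsmul]
    exact h⟩
  left_inv _ := rfl
  right_inv _ := rfl
  map_add' _ _ := rfl

@[simp] theorem torsionByEquivTorsionNat_coe (J : Type*) [AddCommGroup J] (p k : ℕ)
    (x : ↥(Submodule.torsionBy ℤ J ((p : ℤ) ^ k))) :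
    ((torsionByEquivTorsionNat J p k x : ↥(torsionNat J (p ^ k))) : J) = x.1 := rfl

/-- S19 in the currency of flat Galois modules -/
theorem isFlatGaloisModule_torsionNat_of_s19 {N : ℕ} [NeZero N] {p k : ℕ} (h : S19At N p k) :
    IsFlatGaloisModule p ↥(torsionNat (JZero N) (p ^ k))
      (fun σ x => torsAct (JZero N) (p ^ k) σ x) := by
  obtain ⟨H, i1, i2, h1, h2, h3, e, he1, he2⟩ := h
  refine ⟨H, i1, i2, h1, h2, h3, e.trans (torsionByEquivTorsionNat (JZero N) p k).toEquiv,
    fun f g => ?_, fun σ f g hfg => ?_⟩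
  · show torsionByEquivTorsionNat (JZero N) p k (e (f * g)) = _
    rw [he1, map_add]
    rfl
  · apply Subtype.ext
    exact he2 σ f g hfg

/-- flat Galois modules form a class closed under subobjects, quotients and products -/
theorem flatClosure_isFlatGaloisModule (p : ℕ) [Fact p.Prime] :
    FlatClosure (G := GQ) (fun (M : Type) [AddCommGroup M] (a : GQ →* AddMonoid.End M) =>
      IsFlatGaloisModule p M (fun σ x => a σ x)) where
  of_injective a a' f hf hσ h := h.of_injective f hf hσ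
  of_surjective a a' f hf hσ h := h.of_surjective f hf hσ
  prod a a' h h' := h.prod h'

variable {p : ℕ} {N : ℕ} [NeZero N] {S : Finset ℕ}
  {𝒪 : Type} [CommRing 𝒪] [IsDomain 𝒪] [IsDiscreteValuationRing 𝒪]
  [IsAdicComplete (IsLocalRing.maximalIdeal 𝒪) 𝒪]
  {θ : CuspForm.heckeAlgebra N 2 (↑S : Set ℕ) →+* IsLocalRing.ResidueField 𝒪}
  {T : Type} [CommRing T] [IsLocalRing T] [IsNoetherianRing T]
  [IsAdicComplete (IsLocalRing.maximalIdeal T) T] [Algebra 𝒪 T] [IsLocalHom (algebraMap 𝒪 T)]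
  [Module.Finite 𝒪 T] [Module.Free 𝒪 T]

/-- the residue field of the coefficient ring of a datum is finite -/
theorem finite_residueField_of_datum [Finite (ResidueField 𝒪)]
    (H : CuspForm.HeckeGaloisRepDatum N (↑S : Set ℕ) 𝒪 θ T) : Finite (ResidueField T) := by
  refine Finite.of_surjective (ResidueField.map (algebraMap 𝒪 T)) ?_
  intro y
  obtain ⟨x, hx⟩ := H.residue_surjective y
  exact ⟨residue 𝒪 x, hx⟩

/-- **S32 from S19.** -/
theorem s32_of_s19 [Finite (IsLocalRing.ResidueField 𝒪)] [CharZero 𝒪]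
    (hp : p.Prime) (hp2 : p ≠ 2) (hp𝒪 : (p : 𝒪) ∈ IsLocalRing.maximalIdeal 𝒪)
    (hpS : p ∈ S) (hNS : ∀ q : ℕ, q.Prime → q ∣ N → q ∈ S)
    (H : CuspForm.HeckeGaloisRepDatum N (↑S : Set ℕ) 𝒪 θ T)
    (h19 : ∀ k : ℕ, S19At N p k) :
    H.ρ.IsFlatAt p := by
  haveI : Fact p.Prime := ⟨hp⟩
  rw [isFlatAt_iff]
  refine ⟨finite_residueField_of_datum H, fun IT hIT => ?_⟩
  haveI : Finite (T ⧸ IT) := hIT
  exact realise_datum (stageIData N p) hp2 hp𝒪 hpS hNS H (flatClosure_isFlatGaloisModule p)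
    (fun m => isFlatGaloisModule_torsionNat_of_s19 (h19 m)) IT

end Fermat.Agent.S32
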