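/-
S32 [S32-REAL] — helper6 — **the Boston–Lenstra–Ribet lemma** (dimension two, `2` invertible).

`r : G →* Mat2 A` a matrix representation of a group with full span (e.g. residually absolutely
irreducible over a local ring), `s : G →* E` a monoid homomorphism into an arbitrary `A`-algebra
such that every `s g` is annihilated by the characteristic polynomial of `r g`:
`s g ^ 2 - tr (r g) • s g + det (r g) • 1 = 0`.  Then `s` factors through `r`: there is an
`A`-algebra homomorphism `blrHom : Mat2 A →ₐ[A] E` with `blrHom (r g) = s g`.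
(Boston–Lenstra–Ribet, *Quotients of group rings arising from two-dimensional representations*.)
-/
import Mathlib
import Fermat.Agent.S53.L1_helper1_MatrixAlg

set_option autoImplicit false
set_option linter.unusedSectionVars false

namespace Fermat.Agent.S32

open Fermat.Agent.S53.L1

section BLR

variable {A : Type*} [CommRing A] {G : Type*} [Group G] {E : Type*} [Ring E] [Algebra A E]
  (r : G →* Mat2 A) (s : G →* E)

/-- the pairs `(r g, s g)` -/
def blrGen (g : G) : Mat2 A × E := (r g, s g)

theorem blrGen_mul (g g' : G) : blrGen r s (g * g') = blrGen r s g * blrGen r s g' := by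
  unfold blrGen
  rw [map_mul, map_mul]
  rfl

theorem blrGen_one : blrGen r s 1 = 1 := by
  unfold blrGen
  rw [map_one, map_one]
  rfl

/-- the span of the pairs `(r g, s g)` -/
def blrSpan : Submodule A (Mat2 A × E) := Submodule.span A (Set.range (blrGen r s))

theorem blrGen_mem (g : G) : blrGen r s g ∈ blrSpan r s := Submodule.subset_span ⟨g, rfl⟩

theorem one_mem_blrSpan : (1 : Mat2 A × E) ∈ blrSpan r s := by
  rw [← blrGen_one r s]
  exact blrGen_mem r s 1

theorem mul_mem_blrSpan {b c : Mat2 A × E} (hb : b ∈ blrSpan r s) (hc : c ∈ blrSpan r s) :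
    b * c ∈ blrSpan r s := by
  induction hb using Submodule.span_induction with
  | mem b hb =>
    obtain ⟨g, rfl⟩ := hb
    induction hc using Submodule.span_induction with
    | mem c hc =>
      obtain ⟨g', rfl⟩ := hc
      rw [← blrGen_mul]
      exact blrGen_mem r s _
    | zero => rw [mul_zero]; exact Submodule.zero_mem _
    | add c c' _ _ h1 h2 => rw [mul_add]; exact Submodule.add_mem _ h1 h2
    | smul a c _ h1 => rw [mul_smul_comm]; exact Submodule.smul_mem _ a h1
  | zero => rw [zero_mul]; exact Submodule.zero_mem _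
  | add b b' _ _ h1 h2 => rw [add_mul]; exact Submodule.add_mem _ h1 h2
  | smul a b _ h1 => rw [smul_mul_assoc]; exact Submodule.smul_mem _ a h1

/-- the "main involution" `b ↦ tr b.1 - b` on pairs -/
def blrStar : Mat2 A × E →ₗ[A] Mat2 A × E where
  toFun b := (Matrix.trace b.1 • (1 : Mat2 A) - b.1, Matrix.trace b.1 • (1 : E) - b.2)
  map_add' b c := by
    ext1
    · simp only [Prod.fst_add, Matrix.trace_add, add_smul]; abel
    · simp only [Prod.fst_add, Prod.snd_add, Matrix.trace_add, add_smul]; abel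
  map_smul' a b := by
    ext1
    · simp only [Prod.smul_fst, Matrix.trace_smul, RingHom.id_apply, smul_sub, smul_eq_mul,
        mul_smul]
    · simp only [Prod.smul_fst, Prod.smul_snd, Matrix.trace_smul, RingHom.id_apply, smul_sub,
        smul_eq_mul, mul_smul]

theorem blrStar_fst (b : Mat2 A × E) :
    (blrStar (A := A) (E := E) b).1 = Matrix.trace b.1 • (1 : Mat2 A) - b.1 := rfl

theorem blrStar_snd (b : Mat2 A × E) :
    (blrStar (A := A) (E := E) b).2 = Matrix.trace b.1 • (1 : E) - b.2 := rfl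

variable (hCH : ∀ g, s g * s g - Matrix.trace (r g) • s g + Matrix.det (r g) • (1 : E) = 0)

theorem trace_smul_one_sub (M : Mat2 A) : Matrix.trace M • (1 : Mat2 A) - M = M.adjugate := by
  rw [Matrix.adjugate_fin_two]
  ext i j
  fin_cases i <;> fin_cases j <;> simp [Matrix.trace_fin_two]

include hCH in
/-- `γ_g^* = det (r g) • γ_{g⁻¹}` -/
theorem blrStar_gen (g : G) :
    blrStar (blrGen r s g) = Matrix.det (r g) • blrGen r s g⁻¹ := by
  ext1
  · rw [blrStar_fst]
    show Matrix.trace (r g) • (1 : Mat2 A) - r g = Matrix.det (r g) • r g⁻¹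
    rw [trace_smul_one_sub]
    have h1 : r g * r g⁻¹ = 1 := by rw [← map_mul, mul_inv_cancel, map_one]
    calc (r g).adjugate = (r g).adjugate * (r g * r g⁻¹) := by rw [h1, mul_one]
      _ = ((r g).adjugate * r g) * r g⁻¹ := by rw [mul_assoc]
      _ = Matrix.det (r g) • r g⁻¹ := by rw [Matrix.adjugate_mul, smul_mul_assoc, one_mul]
  · rw [blrStar_snd]
    show Matrix.trace (r g) • (1 : E) - s g = Matrix.det (r g) • s g⁻¹
    have h1 : s g * s g⁻¹ = 1 := by rw [← map_mul, mul_inv_cancel, map_one]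
    have h2 := congrArg (fun x => x * s g⁻¹) (hCH g)
    simp only [add_mul, sub_mul, zero_mul, smul_mul_assoc, one_mul] at h2
    rw [mul_assoc, h1, mul_one] at h2
    rw [← sub_eq_zero]
    rw [← neg_eq_zero]
    rw [← h2]
    abel

include hCH in
theorem blrStar_mul_gen {b : Mat2 A × E} (hb : b ∈ blrSpan r s) (g : G) :
    blrStar (b * blrGen r s g) = blrStar (blrGen r s g) * blrStar b := by
  induction hb using Submodule.span_induction with
  | mem b hb =>
    obtain ⟨g', rfl⟩ := hb
    rw [← blrGen_mul, blrStar_gen r s hCH, blrStar_gen r s hCH, blrStar_gen r s hCH, mul_inv_rev,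
      blrGen_mul, map_mul, smul_mul_smul_comm, mul_comm, Matrix.det_mul]
  | zero => rw [zero_mul, map_zero, mul_zero]
  | add b b' _ _ h1 h2 => rw [add_mul, map_add, map_add, mul_add, h1, h2]
  | smul a b _ h1 => rw [smul_mul_assoc, map_smul, map_smul, mul_smul_comm, h1]

include hCH in
/-- the involution is anti-multiplicative on the span -/
theorem blrStar_mul {b c : Mat2 A × E} (hb : b ∈ blrSpan r s) (hc : c ∈ blrSpan r s) :
    blrStar (b * c) = blrStar c * blrStar b := by
  induction hc using Submodule.span_induction with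
  | mem c hc =>
    obtain ⟨g, rfl⟩ := hc
    exact blrStar_mul_gen r s hCH hb g
  | zero => rw [mul_zero, map_zero, zero_mul]
  | add c c' _ _ h1 h2 => rw [mul_add, map_add, map_add, add_mul, h1, h2]
  | smul a c _ h1 => rw [mul_smul_comm, map_smul, map_smul, smul_mul_assoc, h1]

include hCH in
/-- for `(0, n)` and `c` in the span: `n * c.2 = (c^*).2 * n` -/
theorem blr_mul_eq {n : E} (hn : ((0 : Mat2 A), n) ∈ blrSpan r s) {c : Mat2 A × E}
    (hc : c ∈ blrSpan r s) : n * c.2 = (blrStar c).2 * n := by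
  have h := blrStar_mul r s hCH hn hc
  have h2 := congrArg Prod.snd h
  rw [Prod.snd_mul, blrStar_snd, blrStar_snd ((0 : Mat2 A), n)] at h2
  simp only [Prod.fst_mul, zero_mul, Matrix.trace_zero, zero_smul, zero_sub, Prod.snd_mul,
    mul_neg, neg_inj] at h2
  rw [h2, blrStar_snd]

include hCH in
theorem blr_mul_comm {n : E} (hn : ((0 : Mat2 A), n) ∈ blrSpan r s) {c c' : Mat2 A × E}
    (hc : c ∈ blrSpan r s) (hc' : c' ∈ blrSpan r s) : n * (c.2 * c'.2) = n * (c'.2 * c.2) := by
  have h1 : n * (c.2 * c'.2) = (blrStar (c * c')).2 * n := by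
    have := blr_mul_eq r s hCH hn (mul_mem_blrSpan r s hc hc')
    rwa [Prod.snd_mul] at this
  rw [h1, blrStar_mul r s hCH hc hc', Prod.snd_mul, mul_assoc, ← blr_mul_eq r s hCH hn hc,
    ← mul_assoc, ← blr_mul_eq r s hCH hn hc', mul_assoc]

include hCH in
theorem blr_sq_zero (h2 : IsUnit (2 : A)) {n : E} (hn : ((0 : Mat2 A), n) ∈ blrSpan r s) :
    n * n = 0 := by
  have h := blr_mul_eq r s hCH hn hn
  rw [blrStar_snd] at h
  simp only [Matrix.trace_zero, zero_smul, zero_sub, neg_mul] at h
  have h3 : (2 : A) • (n * n) = 0 := by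
    rw [two_smul]
    nth_rewrite 1 [h]
    exact neg_add_cancel _
  obtain ⟨u, hu⟩ := h2
  have : (↑u⁻¹ : A) • ((2 : A) • (n * n)) = 0 := by rw [h3, smul_zero]
  rwa [smul_smul, ← hu, Units.inv_mul, one_smul] at this

include hCH in
/-- **Boston–Lenstra–Ribet**: uniqueness of the second component. -/
theorem blr_eq_zero (h2 : IsUnit (2 : A)) (hr : FullSpan r) {n : E}
    (hn : ((0 : Mat2 A), n) ∈ blrSpan r s) : n = 0 := by
  -- lifts of the matrix units `e₁₂`, `e₂₁`
  have hfst : ∀ X : Mat2 A, ∃ e : E, (X, e) ∈ blrSpan r s := by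
    intro X
    have hX : X ∈ Submodule.span A (Set.range r) := by
      rw [show Submodule.span A (Set.range r) = ⊤ from hr]; trivial
    induction hX using Submodule.span_induction with
    | mem X hX =>
      obtain ⟨g, rfl⟩ := hX
      exact ⟨s g, blrGen_mem r s g⟩
    | zero => exact ⟨0, Submodule.zero_mem _⟩
    | add X Y _ _ h1 h2 =>
      obtain ⟨e1, he1⟩ := h1
      obtain ⟨e2, he2⟩ := h2
      exact ⟨e1 + e2, Submodule.add_mem _ he1 he2⟩
    | smul a X _ h1 =>
      obtain ⟨e1, he1⟩ := h1
      exact ⟨a • e1, Submodule.smul_mem _ a he1⟩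
  obtain ⟨u, hu⟩ := hfst (Matrix.single 0 1 1)
  obtain ⟨v, hv⟩ := hfst (Matrix.single 1 0 1)
  -- `w = [u, v]` lifts `D = e₁₁ - e₂₂`, and `n * w = 0`
  have hw : (Matrix.single (0 : Fin 2) (1 : Fin 2) (1 : A) * Matrix.single 1 0 1 -
      Matrix.single 1 0 1 * Matrix.single 0 1 1, u * v - v * u) ∈ blrSpan r s :=
    Submodule.sub_mem _ (mul_mem_blrSpan r s hu hv) (mul_mem_blrSpan r s hv hu)
  have hnw : n * (u * v - v * u) = 0 := by
    rw [mul_sub, sub_eq_zero]
    exact blr_mul_comm r s hCH hn hu hv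
  have hww := mul_mem_blrSpan r s hw hw
  have hD : (Matrix.single (0 : Fin 2) (1 : Fin 2) (1 : A) * Matrix.single 1 0 1 -
      Matrix.single 1 0 1 * Matrix.single 0 1 1) * (Matrix.single (0 : Fin 2) (1 : Fin 2) (1 : A) *
      Matrix.single 1 0 1 - Matrix.single 1 0 1 * Matrix.single 0 1 1) = 1 := by
    ext i j
    fin_cases i <;> fin_cases j <;> simp [Matrix.mul_apply, Matrix.single_apply]
  -- `z = 1 - w * w` lies over `0`
  have hz : ((0 : Mat2 A), 1 - (u * v - v * u) * (u * v - v * u)) ∈ blrSpan r s := by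
    have := Submodule.sub_mem _ (one_mem_blrSpan r s) hww
    rw [Prod.mk_mul_mk, hD] at this
    have h0 : (1 : Mat2 A × E) - (1, (u * v - v * u) * (u * v - v * u)) =
        ((0 : Mat2 A), 1 - (u * v - v * u) * (u * v - v * u)) := by
      ext1
      · show (1 : Mat2 A) - 1 = 0
        exact sub_self _
      · rfl
    rwa [h0] at this
  have hnz : n = n * (1 - (u * v - v * u) * (u * v - v * u)) := by
    rw [mul_sub, mul_one, ← mul_assoc, hnw, zero_mul, sub_zero]
  have hzz := blr_sq_zero r s hCH h2 hz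
  rw [hnz, hnz, mul_assoc, hzz, mul_zero]

end BLR

section Hom

variable {A : Type*} [CommRing A] {G : Type*} [Group G] {E : Type*} [Ring E] [Algebra A E]
  (r : G →* Mat2 A) (s : G →* E)
  (hCH : ∀ g, s g * s g - Matrix.trace (r g) • s g + Matrix.det (r g) • (1 : E) = 0)
  (h2 : IsUnit (2 : A)) (hr : FullSpan r)

include hr in
theorem exists_mem_blrSpan (X : Mat2 A) : ∃ e : E, (X, e) ∈ blrSpan r s := by
  have hX : X ∈ Submodule.span A (Set.range r) := by
    rw [show Submodule.span A (Set.range r) = ⊤ from hr]; trivial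
  induction hX using Submodule.span_induction with
  | mem X hX =>
    obtain ⟨g, rfl⟩ := hX
    exact ⟨s g, blrGen_mem r s g⟩
  | zero => exact ⟨0, Submodule.zero_mem _⟩
  | add X Y _ _ h1 h2 =>
    obtain ⟨e1, he1⟩ := h1
    obtain ⟨e2, he2⟩ := h2
    exact ⟨e1 + e2, Submodule.add_mem _ he1 he2⟩
  | smul a X _ h1 =>
    obtain ⟨e1, he1⟩ := h1
    exact ⟨a • e1, Submodule.smul_mem _ a he1⟩

include hCH h2 hr in
theorem blrSpan_unique {X : Mat2 A} {e e' : E} (he : (X, e) ∈ blrSpan r s)
    (he' : (X, e') ∈ blrSpan r s) : e = e' := by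
  have h := Submodule.sub_mem _ he he'
  have h0 : (X, e) - (X, e') = ((0 : Mat2 A), e - e') := by
    ext1
    · show X - X = 0
      exact sub_self _
    · rfl
  rw [h0] at h
  exact sub_eq_zero.1 (blr_eq_zero r s hCH h2 hr h)

/-- the value of the BLR homomorphism -/
noncomputable def blrFun (X : Mat2 A) : E := (exists_mem_blrSpan r s hr X).choose

theorem blrFun_mem (X : Mat2 A) : (X, blrFun r s hr X) ∈ blrSpan r s :=
  (exists_mem_blrSpan r s hr X).choose_spec

include hCH h2 in
theorem blrFun_eq {X : Mat2 A} {e : E} (he : (X, e) ∈ blrSpan r s) : blrFun r s hr X = e :=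
  blrSpan_unique r s hCH h2 hr (blrFun_mem r s hr X) he

/-- **Boston–Lenstra–Ribet**: the `A`-algebra homomorphism `Mat2 A → E` through which `s`
factors. -/
noncomputable def blrHom : Mat2 A →ₐ[A] E where
  toFun := blrFun r s hr
  map_one' := blrFun_eq r s hCH h2 hr (one_mem_blrSpan r s)
  map_mul' X Y := blrFun_eq r s hCH h2 hr
    (mul_mem_blrSpan r s (blrFun_mem r s hr X) (blrFun_mem r s hr Y))
  map_zero' := blrFun_eq r s hCH h2 hr (Submodule.zero_mem _)
  map_add' X Y := blrFun_eq r s hCH h2 hr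
    (Submodule.add_mem _ (blrFun_mem r s hr X) (blrFun_mem r s hr Y))
  commutes' a := by
    refine blrFun_eq r s hCH h2 hr ?_
    have := Submodule.smul_mem _ a (one_mem_blrSpan r s)
    rwa [Algebra.algebraMap_eq_smul_one, Algebra.algebraMap_eq_smul_one]

@[simp] theorem blrHom_apply (g : G) : blrHom r s hCH h2 hr (r g) = s g :=
  blrFun_eq r s hCH h2 hr (blrGen_mem r s g)

end Hom

end Fermat.Agent.S32
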