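/-
S32 [S32-REAL] — helper6 — **embedding a full-span rank-two representation into any module
satisfying its Cayley–Hamilton relations.**

* `matAlgHom_injective`: an algebra homomorphism out of `Mat2 R` into a faithful `R`-algebra is
  injective;
* `fullSpan_mapRep`: full span is preserved by base change;
* `blrEmbed`: for `r : G →* Mat2 R` with full span (`2` invertible) and an `R`-module `W` with an
  action `ρW` of `G` killed by the characteristic polynomials of `r`, and a family `w : κ → W`,
  the `R`-linear map `R² → (κ → W)`, `v ↦ (Φ [v | 0] (w k))_k`, is `G`-equivariant, and injective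
  when `W` is faithful and the `w k` span `W`.
-/
import Mathlib
import Fermat.Agent.S32.BLR_helper6

set_option autoImplicit false
set_option linter.unusedSectionVars false

namespace Fermat.Agent.S32

open Fermat.Agent.S53.L1

section Faithful

variable {R : Type*} [CommRing R] {E : Type*} [Ring E] [Algebra R E]

theorem mat2_entry_smul_one (X : Mat2 R) (i k : Fin 2) :
    ∑ m : Fin 2, Matrix.single m 0 (1 : R) * (Matrix.single 0 i 1 * X * Matrix.single k 0 1) *
      Matrix.single 0 m 1 = X i k • (1 : Mat2 R) := by
  ext a b
  fin_cases i <;> fin_cases k <;> fin_cases a <;> fin_cases b <;>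
    simp [Matrix.single_apply, Fin.sum_univ_two, Matrix.sum_apply]

/-- an algebra homomorphism from `Mat2 R` to a faithful `R`-algebra is injective -/
theorem matAlgHom_injective (hE : Function.Injective (algebraMap R E)) (Φ : Mat2 R →ₐ[R] E) :
    Function.Injective Φ := by
  rw [injective_iff_map_eq_zero]
  intro X hX
  ext i k
  have h := congrArg Φ (mat2_entry_smul_one X i k)
  rw [map_sum] at h
  simp only [map_mul, hX, mul_zero, zero_mul, Finset.sum_const_zero] at h
  rw [map_smul, map_one, ← Algebra.algebraMap_eq_smul_one] at h
  have := hE (h.symm.trans (map_zero _).symm)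
  rw [this]
  rfl

end Faithful

section MapRep

variable {G : Type*} [Monoid G]

/-- full span is preserved by base change -/
theorem fullSpan_mapRep {A B : Type*} [CommRing A] [CommRing B] (φ : A →+* B) (r : G →* Mat2 A)
    (hr : FullSpan r) : FullSpan (mapRep φ r) := by
  unfold FullSpan
  rw [eq_top_iff]
  intro X _
  -- `X = ∑ X i k • single i k 1` and `single i k 1` is the image of an element of the span
  have hmem : ∀ Y : Mat2 A, Y.map φ ∈ Submodule.span B (Set.range (mapRep φ r)) := by
    intro Y
    have hY : Y ∈ Submodule.span A (Set.range r) := by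
      rw [show Submodule.span A (Set.range r) = ⊤ from hr]; trivial
    induction hY using Submodule.span_induction with
    | mem Y hY =>
      obtain ⟨g, rfl⟩ := hY
      exact Submodule.subset_span ⟨g, rfl⟩
    | zero =>
      have : (0 : Mat2 A).map φ = 0 := by ext i j; simp
      rw [this]
      exact Submodule.zero_mem _
    | add Y Z _ _ h1 h2 =>
      have : (Y + Z).map φ = Y.map φ + Z.map φ := by ext i j; simp
      rw [this]
      exact Submodule.add_mem _ h1 h2
    | smul a Y _ h1 =>
      have : (a • Y).map φ = φ a • Y.map φ := by ext i j; simp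
      rw [this]
      exact Submodule.smul_mem _ _ h1
  rw [Matrix.matrix_eq_sum_single X]
  refine Submodule.sum_mem _ fun i _ => Submodule.sum_mem _ fun k _ => ?_
  have h1 : Matrix.single i k (X i k) = X i k • (Matrix.single i k (1 : A)).map φ := by
    ext a b
    simp [Matrix.single_apply]
  rw [h1]
  exact Submodule.smul_mem _ _ (hmem _)

end MapRep

section Embed

variable {R : Type*} [CommRing R] {G : Type*} [Group G] {W : Type*} [AddCommGroup W] [Module R W]
  (r : G →* Mat2 R) (ρW : G →* Module.End R W)
  (hCH : ∀ g, ρW g * ρW g - Matrix.trace (r g) • ρW g + Matrix.det (r g) • (1 : Module.End R W) = 0)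
  (h2 : IsUnit (2 : R)) (hr : FullSpan r)

/-- the matrix `[v | 0]` -/
def colMat : (Fin 2 → R) →ₗ[R] Mat2 R where
  toFun v := Matrix.of fun a b => if b = 0 then v a else 0
  map_add' v v' := by
    ext a b
    by_cases hb : b = 0 <;> simp [hb]
  map_smul' c v := by
    ext a b
    by_cases hb : b = 0 <;> simp [hb]

theorem colMat_apply (v : Fin 2 → R) (a b : Fin 2) :
    colMat v a b = if b = 0 then v a else 0 := rfl

theorem mul_colMat (X : Mat2 R) (v : Fin 2 → R) : X * colMat v = colMat (X.mulVec v) := by
  ext a b
  rw [Matrix.mul_apply, colMat_apply]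
  by_cases hb : b = 0
  · simp [hb, colMat_apply, Matrix.mulVec, dotProduct]
  · simp [hb, colMat_apply]

theorem colMat_injective : Function.Injective (colMat (R := R)) := by
  intro v v' h
  ext a
  have := congrFun (congrFun h a) 0
  simpa [colMat_apply] using this

/-- the embedding `R² → (κ → W)` -/
noncomputable def blrEmbed {κ : Type*} (w : κ → W) : (Fin 2 → R) →ₗ[R] (κ → W) where
  toFun v k := blrHom r ρW hCH h2 hr (colMat v) (w k)
  map_add' v v' := by
    ext k
    simp only [map_add, LinearMap.add_apply, Pi.add_apply]
  map_smul' c v := by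
    ext k
    simp only [map_smul, LinearMap.smul_apply, RingHom.id_apply, Pi.smul_apply]

theorem blrEmbed_apply {κ : Type*} (w : κ → W) (v : Fin 2 → R) (k : κ) :
    blrEmbed r ρW hCH h2 hr w v k = blrHom r ρW hCH h2 hr (colMat v) (w k) := rfl

/-- equivariance -/
theorem blrEmbed_mulVec {κ : Type*} (w : κ → W) (g : G) (v : Fin 2 → R) (k : κ) :
    blrEmbed r ρW hCH h2 hr w ((r g).mulVec v) k = ρW g (blrEmbed r ρW hCH h2 hr w v k) := by
  rw [blrEmbed_apply, blrEmbed_apply, ← mul_colMat, map_mul, blrHom_apply]
  rfl

/-- injectivity -/
theorem blrEmbed_injective {κ : Type*} (w : κ → W)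
    (hfaith : ∀ a : R, (∀ x : W, a • x = 0) → a = 0)
    (hw : Submodule.span R (Set.range w) = ⊤) :
    Function.Injective (blrEmbed r ρW hCH h2 hr w) := by
  rw [injective_iff_map_eq_zero]
  intro v hv
  apply colMat_injective
  rw [map_zero]
  have hE : Function.Injective (algebraMap R (Module.End R W)) := by
    rw [injective_iff_map_eq_zero]
    intro a ha
    apply hfaith
    intro x
    have := LinearMap.congr_fun ha x
    simpa [Module.algebraMap_end_apply] using this
  apply matAlgHom_injective hE (blrHom r ρW hCH h2 hr)
  rw [map_zero]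
  apply LinearMap.ext_on_range hw
  intro k
  have := congrFun hv k
  rw [blrEmbed_apply] at this
  rw [this]
  rfl

end Embed

end Fermat.Agent.S32
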