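/-
S32 [S32-REAL] — helper6 — **(C)+(D) the embedding attached to one point of `T`.**

`H` a Hecke–Galois datum over `T` (`p` odd), `ψ : T →+* B` a local homomorphism into a complete
DVR and `a : Nat.Primes → B` a full eigensystem occurring in `Hom_par(Γ₀(N), Frac B)` with
`a ℓ = ψ (π T_ℓ)` at the good primes outside `S`.  Then (Chebotarev + Cayley–Hamilton +
Boston–Lenstra–Ribet) there is an additive map
`e : H.ρ.V →+ (Fin 2 → parabolicHoms B Γ₀(N) B)`, Galois-equivariant for `rhoM`, `ψ`-semilinear,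
whose kernel consists of the vectors all of whose coordinates are killed by `ψ`.
-/
import Mathlib
import Fermat.Agent.S32.Embed_helper6
import Fermat.Agent.S58.CHEB_helper4
import Fermat.Agent.GR.S30TOP_lead
import Fermat.Agent.GR.K9C_helper3
import Fermat.Prelude.Def_CuspForm_HeckeGaloisRepDatum

set_option autoImplicit false
set_option linter.unusedSectionVars false
set_option linter.unusedVariables false
set_option linter.style.haveILetI false

namespace Fermat.Agent.S32

open CongruenceSubgroup ModularCurve ModularCurve.Period Polynomial IsLocalRing Fermat.Agent.GR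
  Fermat.Agent.S53.L1 CuspForm

open scoped MatrixGroups

local notation "Ω" => AlgebraicClosure ℚ
local notation "GQ" => (AlgebraicClosure ℚ ≃ₐ[ℚ] AlgebraicClosure ℚ)

section RankTwo

variable {R V : Type*} [CommRing R] [AddCommGroup V] [Module R V] [Module.Free R V]
  [Module.Finite R V]

/-- Cayley–Hamilton in rank two -/
theorem cayleyHamilton_rank_two (hV : Module.finrank R V = 2) (f : Module.End R V) :
    f * f - LinearMap.trace R V f • f + LinearMap.det f • (1 : Module.End R V) = 0 := by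
  have h := LinearMap.aeval_self_charpoly f
  rw [charpoly_eq_of_finrank_eq_two hV f] at h
  simp only [map_add, map_sub, map_mul, map_pow, aeval_X, aeval_C] at h
  rw [← h, pow_two, Algebra.algebraMap_eq_smul_one, Algebra.algebraMap_eq_smul_one,
    smul_mul_assoc, one_mul]

end RankTwo

section Point

variable {p : ℕ} [hp : Fact p.Prime] {N : ℕ} [NeZero N] {S : Finset ℕ}
  {𝒪 : Type} [CommRing 𝒪] [IsDomain 𝒪] [IsDiscreteValuationRing 𝒪]
  [IsAdicComplete (IsLocalRing.maximalIdeal 𝒪) 𝒪]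
  {θ : CuspForm.heckeAlgebra N 2 (↑S : Set ℕ) →+* IsLocalRing.ResidueField 𝒪}
  {T : Type} [CommRing T] [IsLocalRing T] [IsNoetherianRing T]
  [IsAdicComplete (IsLocalRing.maximalIdeal T) T] [Algebra 𝒪 T] [IsLocalHom (algebraMap 𝒪 T)]
  [Module.Finite 𝒪 T] [Module.Free 𝒪 T]

theorem det_repMat (ρ : GaloisRepAdic T) (σ : GQ) :
    Matrix.det (repMat ρ σ) = LinearMap.det (ρ.ρ σ) := by
  rw [repMat_apply, LinearMap.det_toMatrix]

/-- **the embedding attached to one point.** -/
theorem exists_pointEmbed (I : StageIData N p) (hp2 : p ≠ 2)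
    (hpS : p ∈ S) (hNS : ∀ q : ℕ, q.Prime → q ∣ N → q ∈ S)
    (H : CuspForm.HeckeGaloisRepDatum N (↑S : Set ℕ) 𝒪 θ T)
    (B : Type) [CommRing B] [IsDomain B] [IsDiscreteValuationRing B] [CharZero B]
    [Algebra ℤ_[p] B] (hpB : (p : B) ∈ maximalIdeal B)
    (ψ : T →+* B) [IsLocalHom ψ]
    (L : Type) [Field L] [Algebra B L] [IsFractionRing B L] (a : Nat.Primes → B)
    (hocc : eigenPar N L (mapSys B L a) ≠ ⊥)
    (ha : ∀ (ℓ : ℕ) (hℓ : ℓ.Prime) (hℓN : ¬ ℓ ∣ N) (hℓS : ℓ ∉ (↑S : Set ℕ)),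
      a ⟨ℓ, hℓ⟩ = ψ (H.π (CuspForm.heckeAlgebra.T hℓ hℓN hℓS))) :
    ∃ e : H.ρ.V →+ (Fin 2 → ↥(parabolicHoms B (Gamma0 N) B)),
      (∀ (σ : GQ) (v : H.ρ.V) (k : Fin 2),
        e (H.ρ.ρ σ v) k = rhoM N p B I.rhoP σ (e v k)) ∧
      (∀ (t : T) (v : H.ρ.V) (k : Fin 2), e (t • v) k = ψ t • e v k) ∧
      (∀ v : H.ρ.V, e v = 0 → ∀ i, ψ ((repBasis H.ρ).repr v i) = 0) := by
  haveI : CharZero L := charZero_of_injective_algebraMap (IsFractionRing.injective B L)
  obtain ⟨_, _, hrank⟩ := mult1_field hocc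
  obtain ⟨hplus, hminus⟩ := exists_plus_minus_of_occ L (mapSys B L a) hocc
  -- the lattice representation
  set ρ' : GaloisRepAdic B := I.rep B hpB a L hrank with hρ'
  -- Frobenius characteristic polynomials
  have hfrob : ∀ ℓ : ℕ, ℓ.Prime → ℓ ∉ S → ∀ P : ValuationSubring Ω, P.LiesOverPrime ℓ →
      ∀ φ : GQ, P.IsFrobeniusAt φ ℓ →
        (LinearMap.charpoly (H.ρ.ρ φ)).map ψ = LinearMap.charpoly (ρ'.ρ φ) := by
    intro ℓ hℓ hℓS P hP φ hφ
    have hℓN : ¬ ℓ ∣ N := fun h => hℓS (hNS ℓ hℓ h)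
    have hℓS' : ℓ ∉ (↑S : Set ℕ) := by simpa using hℓS
    have hℓp : ℓ ≠ p := fun h => hℓS (by rw [h]; exact hpS)
    have hℓNp : ¬ ℓ ∣ N * p := by
      intro h
      rcases (Nat.Prime.dvd_mul hℓ).1 h with h | h
      · exact hℓN h
      · exact hℓp ((Nat.prime_dvd_prime_iff_eq hℓ hp.out).1 h)
    rw [H.charpoly_frob ℓ hℓ hℓN hℓS' P hP φ hφ,
      I.rep_charpoly_frobenius B hpB a L hrank hplus hminus hℓ hℓNp hP hφ, ha ℓ hℓ hℓN hℓS']
    simp only [Polynomial.map_add, Polynomial.map_sub, Polynomial.map_mul, Polynomial.map_pow,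
      Polynomial.map_X, Polynomial.map_C, map_natCast, Polynomial.map_natCast]
  have hsep := Fermat.Agent.S58.cheb_separated_of_noetherian B
  have htd := fun σ : GQ => Fermat.Agent.S58.cheb_trace_det_eq ψ hsep H.ρ ρ' S hfrob σ
  -- the matrix representations
  have hr := fullSpan_repMat H.ρ H.residual_absIrr
  have hr' := fullSpan_mapRep ψ (repMat H.ρ) hr
  have htr : ∀ σ : GQ, Matrix.trace (mapRep ψ (repMat H.ρ) σ) =
      LinearMap.trace B ρ'.V (ρ'.ρ σ) := by
    intro σ
    rw [mapRep_apply, ← (htd σ).1, ← trace_repMat]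
    simp [Matrix.trace_fin_two]
  have hdet : ∀ σ : GQ, Matrix.det (mapRep ψ (repMat H.ρ) σ) = LinearMap.det (ρ'.ρ σ) := by
    intro σ
    rw [mapRep_apply, ← (htd σ).2, ← det_repMat]
    simp [Matrix.det_fin_two]
  have hCH : ∀ σ : GQ, ρ'.ρ σ * ρ'.ρ σ - Matrix.trace (mapRep ψ (repMat H.ρ) σ) • ρ'.ρ σ +
      Matrix.det (mapRep ψ (repMat H.ρ) σ) • (1 : Module.End B ρ'.V) = 0 := by
    intro σ
    rw [htr, hdet]
    exact cayleyHamilton_rank_two ρ'.finrank_eq (ρ'.ρ σ)
  -- `2` is a unit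
  have h2 : IsUnit (2 : B) := by
    by_contra h
    have h2m : (2 : B) ∈ maximalIdeal B := (mem_maximalIdeal _).2 h
    obtain ⟨k, hk⟩ := hp.out.odd_of_ne_two hp2
    have h1 : (1 : B) = (p : B) - 2 * (k : B) := by
      rw [hk]; push_cast; ring
    have : (1 : B) ∈ maximalIdeal B := by
      rw [h1]
      exact Ideal.sub_mem _ hpB (Ideal.mul_mem_right _ _ h2m)
    exact (maximalIdeal.isMaximal B).ne_top ((Ideal.eq_top_iff_one _).2 this)
  -- the BLR embedding
  let w : Module.Basis (Fin 2) B ρ'.V := Module.finBasisOfFinrankEq B ρ'.V ρ'.finrank_eq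
  let emb := blrEmbed (mapRep ψ (repMat H.ρ)) ρ'.ρ hCH h2 hr' w
  have hembinj : Function.Injective emb := by
    refine blrEmbed_injective (mapRep ψ (repMat H.ρ)) ρ'.ρ hCH h2 hr' w ?_ w.span_eq
    intro c hc
    have := hc (w 0)
    rcases smul_eq_zero.1 this with h | h
    · exact h
    · exact absurd h (w.ne_zero 0)
  let coord : H.ρ.V →ₗ[T] (Fin 2 → T) := ((repBasis H.ρ).equivFun : H.ρ.V ≃ₗ[T] (Fin 2 → T))
  have hcoord : ∀ (v : H.ρ.V) (i : Fin 2), coord v i = (repBasis H.ρ).repr v i := fun v i => rfl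
  let e : H.ρ.V →+ (Fin 2 → ↥(parabolicHoms B (Gamma0 N) B)) :=
    { toFun := fun v k => (emb (fun i => ψ (coord v i)) k).1
      map_zero' := by
        funext k
        have : (fun i => ψ (coord (0 : H.ρ.V) i)) = 0 := by
          funext i; rw [map_zero]; exact map_zero ψ
        rw [this, map_zero]
        rfl
      map_add' := fun v v' => by
        funext k
        have : (fun i => ψ (coord (v + v') i)) =
            (fun i => ψ (coord v i)) + (fun i => ψ (coord v' i)) := by
          funext i; rw [map_add]; exact map_add ψ _ _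
        rw [this, map_add]
        rfl }
  refine ⟨e, ?_, ?_, ?_⟩
  · intro σ v k
    show (emb (fun i => ψ (coord (H.ρ.ρ σ v) i)) k).1 = _
    have h1 : (fun i => ψ (coord (H.ρ.ρ σ v) i)) =
        (mapRep ψ (repMat H.ρ) σ).mulVec (fun i => ψ (coord v i)) := by
      funext i
      have h3 : coord (H.ρ.ρ σ v) = (repMat H.ρ σ).mulVec (coord v) := by
        funext j
        rw [hcoord, repMat_apply, ← LinearMap.toMatrix_mulVec_repr (repBasis H.ρ) (repBasis H.ρ)]
        rfl
      rw [h3, mapRep_apply]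
      simp only [Matrix.mulVec, dotProduct, map_sum, map_mul, Matrix.map_apply]
    rw [h1]
    have h4 := blrEmbed_mulVec (mapRep ψ (repMat H.ρ)) ρ'.ρ hCH h2 hr' w σ
      (fun i => ψ (coord v i)) k
    rw [show emb = blrEmbed (mapRep ψ (repMat H.ρ)) ρ'.ρ hCH h2 hr' w from rfl, h4]
    rfl
  · intro t v k
    show (emb (fun i => ψ (coord (t • v) i)) k).1 = ψ t • (emb (fun i => ψ (coord v i)) k).1
    have h1 : (fun i => ψ (coord (t • v) i)) = ψ t • (fun i => ψ (coord v i)) := by
      funext i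
      rw [map_smul]
      show ψ (t * coord v i) = ψ t * ψ (coord v i)
      exact map_mul ψ _ _
    rw [h1, map_smul]
    rfl
  · intro v hv i
    have h1 : emb (fun i => ψ (coord v i)) = 0 := by
      funext k
      have := congrFun hv k
      exact Subtype.ext this
    have h2' := hembinj (h1.trans (map_zero emb).symm)
    rw [← hcoord]
    exact congrFun h2' i

end Point

end Fermat.Agent.S32
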